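import Mathlib.Analysis.Complex.Basic
import Mathlib.LinearAlgebra.Lagrange

/-!
# Coefficients from values in an arithmetic progression
-/

set_option autoImplicit false

noncomputable section

open Finset Polynomial

namespace FA.Chudnovsky

theorem norm_coeff_prod_le {ι : Type*} [DecidableEq ι] (s : Finset ι) (a x : ι → ℂ) (b : ℕ) :
    ‖(∏ i ∈ s, C (a i) * (X - C (x i))).coeff b‖ ≤ ∏ i ∈ s, ‖a i‖ * (1 + ‖x i‖) := by
  induction s using Finset.induction_on generalizing b with
  | empty => rcases eq_or_ne b 0 with rfl | hb <;> simp [coeff_one, *]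
  | @insert i s hi ih =>
    rw [prod_insert hi, prod_insert hi, mul_assoc (C (a i)), coeff_C_mul, norm_mul,
      mul_assoc ‖a i‖]
    refine mul_le_mul_of_nonneg_left ?_ (norm_nonneg _)
    rw [sub_mul, coeff_sub, coeff_C_mul, add_mul, one_mul]
    refine (norm_sub_le _ _).trans (add_le_add ?_ ?_)
    · rcases b with _ | b
      · rw [coeff_X_mul_zero, norm_zero]
        exact prod_nonneg fun _ _ => by positivity
      · rw [coeff_X_mul]
        exact ih b
    · rw [norm_mul]
      exact mul_le_mul_of_nonneg_left (ih b) (norm_nonneg _)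

/-- The coefficients of a polynomial of degree below `n` small at `x₀ + j h`, `j < n`, are
small. -/
theorem norm_coeff_le_of_values {n : ℕ} (q : Fin n → ℂ) {x₀ h : ℂ} (hh : h ≠ 0) {ε : ℝ}
    (hv : ∀ j < n, ‖∑ b, q b * (x₀ + j * h) ^ (b : ℕ)‖ ≤ ε) (b : Fin n) :
    ‖q b‖ ≤ n * ε * ((1 + ‖x₀‖ + n * ‖h‖) / min 1 ‖h‖) ^ n := by
  classical
  set Q : ℂ[X] := ∑ b : Fin n, C (q b) * X ^ (b : ℕ) with hQ
  have hdeg : Q.degree < n := degree_sum_fin_lt q
  have hcoeff : Q.coeff b = q b := by
    rw [hQ, finsetSum_coeff]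
    simp [Fin.val_inj]
  have hinj : Set.InjOn (fun j : ℕ => x₀ + j * h) (range n : Finset ℕ) := fun i _ j _ hij => by
    simpa [hh] using hij
  have hint := Lagrange.eq_interpolate (s := range n) hinj (f := Q) (by simpa using hdeg)
  rw [← hcoeff, hint, Lagrange.interpolate_apply, finsetSum_coeff]
  have hε : 0 ≤ ε := (norm_nonneg _).trans (hv 0 b.pos)
  set ρ := (1 + ‖x₀‖ + n * ‖h‖) / min 1 ‖h‖ with hρ
  have hm : 0 < min 1 ‖h‖ := lt_min one_pos (norm_pos_iff.2 hh)
  have hρ1 : 1 ≤ ρ := by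
    rw [hρ, one_le_div hm]
    exact (min_le_left _ _).trans (by
      linarith [norm_nonneg x₀, mul_nonneg (Nat.cast_nonneg (α := ℝ) n) (norm_nonneg h)])
  refine (norm_sum_le _ _).trans ((sum_le_card_nsmul _ _ (ε * ρ ^ n) fun j hj => ?_).trans_eq
    (by rw [card_range, nsmul_eq_mul, mul_assoc]))
  rw [mem_range] at hj
  rw [coeff_C_mul, norm_mul]
  refine mul_le_mul ?_ ?_ (norm_nonneg _) hε
  · rw [hQ, eval_finsetSum]
    simpa using hv j hj
  · rw [Lagrange.basis]
    simp only [Lagrange.basisDivisor]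
    refine (norm_coeff_prod_le _ _ _ _).trans ((prod_le_prod (g := fun _ => ρ)
      (fun i _ => by positivity) fun i hi => ?_).trans
      ((prod_const ρ).trans_le (pow_le_pow_right₀ hρ1 ((card_erase_le).trans_eq (card_range n)))))
    obtain ⟨hij, hi⟩ := mem_erase.1 hi
    rw [mem_range] at hi
    rw [show x₀ + (j : ℂ) * h - (x₀ + i * h) = (((j : ℤ) - i : ℤ) : ℂ) * h by push_cast; ring,
      norm_inv, norm_mul, Complex.norm_intCast, hρ, div_eq_inv_mul]
    refine mul_le_mul (inv_anti₀ hm ?_) ?_ (by positivity) (by positivity)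
    · refine (min_le_right _ _).trans (le_mul_of_one_le_left (norm_nonneg _) ?_)
      have : 1 ≤ |((j : ℤ) - i)| := Int.one_le_abs (by omega)
      exact_mod_cast this
    · refine le_trans (add_le_add le_rfl (norm_add_le _ _)) ?_
      rw [norm_mul, Complex.norm_natCast, add_assoc]
      gcongr

end FA.Chudnovsky

end
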