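import Fermat.Agent.Chudnovsky.Expand
import Fermat.Agent.Chudnovsky.Interpolation
import Fermat.Agent.GelfondCubic.Auxiliary
import Fermat.Agent.GelfondCubic.ZeroEstimate

/-!
# The auxiliary function

`auxF` is a polynomial of degree below `A` in `℘` and in `Y`; times `th ^ (3 A)` it is entire.
At the points `ω / 2 + i ω + j τ ω` its derivatives do not depend on `i`.
-/

set_option autoImplicit false

noncomputable section

open Finset Polynomial Matrix Filter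
open scoped Topology PeriodPair

namespace FA.Chudnovsky

open FA.GelfondCubic (Small Acts len exists_small_solution aeval_ne_zero norm_le_of_zeros)

variable {L : PeriodPair} (Φ : Frame L)

/-- `th Y`. -/
def thY (z : ℂ) : ℂ := deriv (th Φ) z - zt Φ (Φ.ω / 2) * th Φ z

variable {A : ℕ} (coef : Fin A × Fin A → ℂ)

/-- The auxiliary function. -/
def auxF (z : ℂ) : ℂ := ∑ x, coef x * mono Φ z x.1 0 x.2 0 0

/-- It, times `th ^ (3 A)`. -/
def auxG (z : ℂ) : ℂ :=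
  ∑ x, coef x *
    (thSq Φ z ^ (x.1 : ℕ) * thY Φ z ^ (x.2 : ℕ) * th Φ z ^ (3 * A - 2 * x.1 - x.2))

theorem differentiable_auxG : Differentiable ℂ (auxG Φ coef) := by
  refine Differentiable.fun_sum fun x _ => (((differentiable_thSq Φ).pow _).mul ?_ |>.mul
    ((differentiable_th Φ).pow _)).const_mul _
  exact ((differentiable_deriv (differentiable_th Φ)).sub
    ((differentiable_th Φ).const_mul _)).pow _

theorem auxG_eq {z : ℂ} (hz : z ∉ L.lattice) :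
    auxG Φ coef z = th Φ z ^ (3 * A) * auxF Φ coef z := by
  rw [auxG, auxF, mul_sum]
  refine sum_congr rfl fun x _ => ?_
  have hY : thY Φ z = th Φ z * ztY Φ z := by
    rw [thY, ztY, mul_sub, show zt Φ z = deriv (th Φ) z / th Φ z from rfl,
      mul_div_cancel₀ _ (th_ne_zero Φ hz)]
    ring
  obtain ⟨r, hr⟩ : ∃ r, 3 * A = 2 * (x.1 : ℕ) + x.2 + r :=
    ⟨_, (Nat.add_sub_cancel' (by omega)).symm⟩
  rw [thSq_off Φ hz, hY, show 3 * A - 2 * (x.1 : ℕ) - x.2 = r by omega, hr, mono]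
  simp only [mul_pow, pow_add, pow_mul, pow_zero, mul_one]
  ring

theorem analyticAt_mono {z : ℂ} (hz : z ∉ L.lattice) (a b c g h : ℕ) :
    AnalyticAt ℂ (fun y => mono Φ y a b c g h) z := by
  have h1 : AnalyticAt ℂ ℘[L] z := L.analyticOnNhd_weierstrassP z hz
  have h2 : AnalyticAt ℂ ℘'[L] z := L.analyticOnNhd_derivWeierstrassP z hz
  have h3 : AnalyticAt ℂ (ztY Φ) z :=
    (((differentiable_deriv (differentiable_th Φ)).analyticAt z).div
      ((differentiable_th Φ).analyticAt z) (th_ne_zero Φ hz)).sub analyticAt_const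
  unfold mono
  fun_prop

theorem analyticAt_auxF {z : ℂ} (hz : z ∉ L.lattice) : AnalyticAt ℂ (auxF Φ coef) z :=
  Finset.analyticAt_fun_sum _ fun _ _ => analyticAt_const.mul (analyticAt_mono Φ hz _ _ _ _ _)

/-- The derivative of order `t` at the `j`-th points. -/
def valueAt (t j : ℕ) : ℂ := ∑ x, coef x * expand (baseVal Φ j) t x.1 0 x.2 0 0

theorem iteratedDeriv_auxF (t i j : ℕ) :
    iteratedDeriv t (auxF Φ coef) (pt Φ i j) = valueAt Φ coef t j := by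
  have hz := pt_notMem Φ i j
  unfold auxF
  rw [iteratedDeriv_fun_sum
    (f := fun (x : Fin A × Fin A) y => coef x * mono Φ y x.1 0 x.2 0 0) fun x _ =>
      (analyticAt_const.mul (analyticAt_mono Φ hz _ _ _ _ _)).contDiffAt]
  refine sum_congr rfl fun x _ => ?_
  rw [iteratedDeriv_const_mul_field, iteratedDeriv_mono Φ t hz, mono_pt]

theorem iteratedDeriv_auxG {t i j : ℕ} (h : ∀ s < t, valueAt Φ coef s j = 0) :
    iteratedDeriv t (auxG Φ coef) (pt Φ i j) =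
      th Φ (pt Φ i j) ^ (3 * A) * valueAt Φ coef t j := by
  have hz := pt_notMem Φ i j
  have he : auxG Φ coef =ᶠ[𝓝 (pt Φ i j)] fun y => th Φ y ^ (3 * A) * auxF Φ coef y :=
    (Mazur.Weier.eventually_notMem L hz).mono fun y hy => auxG_eq Φ coef hy
  have hp : AnalyticAt ℂ (fun y => th Φ y ^ (3 * A)) (pt Φ i j) :=
    ((differentiable_th Φ).analyticAt _).fun_pow _
  rw [he.iteratedDeriv_eq, iteratedDeriv_fun_mul hp.contDiffAt
    (analyticAt_auxF Φ coef hz).contDiffAt]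
  rw [sum_eq_single 0]
  · simp [iteratedDeriv_auxF]
  · intro s hs hs0
    rw [iteratedDeriv_auxF, h (t - s) (by simp only [mem_range] at hs; omega), mul_zero]
  · simp

theorem pt_injective : Function.Injective fun p : ℕ × ℕ => pt Φ p.1 p.2 := fun p q h => by
  have h1 : ((p.1 : ℂ) + p.2 * Φ.τ) = q.1 + q.2 * Φ.τ := mul_right_cancel₀ Φ.hω (by
    simp only [pt] at h
    linear_combination h)
  have him := congrArg Complex.im h1
  simp [Φ.hτ.ne'] at him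
  refine Prod.ext ?_ him
  rw [him] at h1
  exact_mod_cast add_right_cancel h1

/-- A bound for the norms of the points, divided by `N`. -/
def ptSize : ℝ := ‖Φ.ω‖ * (2 + ‖Φ.τ‖) + 1

theorem one_le_ptSize : 1 ≤ ptSize Φ := le_add_of_nonneg_left (by positivity)

theorem norm_pt_le {N i j : ℕ} (hN : 1 ≤ N) (hi : i < N) (hj : j < N) :
    ‖pt Φ i j‖ + 1 ≤ ptSize Φ * N := by
  have hN1 : (1 : ℝ) ≤ N := by exact_mod_cast hN
  have hi' : (i : ℝ) ≤ N := by exact_mod_cast hi.le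
  have hj' : (j : ℝ) ≤ N := by exact_mod_cast hj.le
  have h1 : ‖pt Φ i j‖ ≤ ‖Φ.ω‖ / 2 + i * ‖Φ.ω‖ + j * (‖Φ.τ‖ * ‖Φ.ω‖) :=
    norm_add₃_le.trans_eq (by simp)
  rw [ptSize]
  nlinarith [norm_nonneg Φ.ω, mul_le_mul_of_nonneg_right hi' (norm_nonneg Φ.ω),
    mul_le_mul_of_nonneg_right hj' (mul_nonneg (norm_nonneg Φ.τ) (norm_nonneg Φ.ω))]

theorem exists_growth : ∃ Cg : ℝ, 0 ≤ Cg ∧ ∀ {A : ℕ} (coef : Fin A × Fin A → ℂ) {P R : ℝ},
    0 ≤ P → (∀ x, ‖coef x‖ ≤ P) → ∀ z : ℂ, ‖z‖ ≤ R →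
      ‖auxG Φ coef z‖ ≤ P * Real.exp (Cg * A * (R + 1) ^ 2) := by
  obtain ⟨C, hC, hb⟩ := exists_bound Φ
  set y₀ := ‖zt Φ (Φ.ω / 2)‖ with hy
  refine ⟨3 * C + y₀ + 2, by positivity, fun {A} coef {P R} hP0 hP z hz => ?_⟩
  set W := C * (‖z‖ + 1) ^ 2 with hW
  have hW0 : 0 ≤ W := by positivity
  obtain ⟨h1, h2, h3⟩ := hb z
  have hYb : ‖thY Φ z‖ ≤ (1 + y₀) * Real.exp W := by
    rw [thY, add_mul, one_mul]
    refine (norm_sub_le _ _).trans (add_le_add h2 ?_)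
    rw [norm_mul]
    exact mul_le_mul_of_nonneg_left h1 (norm_nonneg _)
  have hy0 : 0 ≤ y₀ := norm_nonneg _
  have hterm : ∀ x : Fin A × Fin A, ‖coef x *
      (thSq Φ z ^ (x.1 : ℕ) * thY Φ z ^ (x.2 : ℕ) * th Φ z ^ (3 * A - 2 * x.1 - x.2))‖ ≤
      P * Real.exp ((y₀ + 3 * W) * A) := fun x => by
    rw [norm_mul, norm_mul, norm_mul, norm_pow, norm_pow, norm_pow]
    refine mul_le_mul (hP x) ?_ (by positivity) hP0
    calc ‖thSq Φ z‖ ^ (x.1 : ℕ) * ‖thY Φ z‖ ^ (x.2 : ℕ) *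
          ‖th Φ z‖ ^ (3 * A - 2 * x.1 - x.2)
        ≤ Real.exp W ^ (x.1 : ℕ) * ((1 + y₀) * Real.exp W) ^ (x.2 : ℕ) *
          Real.exp W ^ (3 * A - 2 * x.1 - x.2) := by gcongr
      _ = (1 + y₀) ^ (x.2 : ℕ) *
          Real.exp W ^ ((x.1 : ℕ) + x.2 + (3 * A - 2 * x.1 - x.2)) := by
          rw [mul_pow, pow_add, pow_add]; ring
      _ ≤ Real.exp y₀ ^ A * Real.exp W ^ (3 * A) := by
          refine mul_le_mul ((pow_le_pow_left₀ (by positivity)
            (by linarith [Real.add_one_le_exp y₀]) _).trans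
              (pow_le_pow_right₀ (Real.one_le_exp hy0) x.2.isLt.le))
            (pow_le_pow_right₀ (Real.one_le_exp hW0) (by omega)) (by positivity) (by positivity)
      _ = _ := by
          rw [← Real.exp_nat_mul, ← Real.exp_nat_mul, ← Real.exp_add]
          push_cast; ring_nf
  refine ((norm_sum_le _ _).trans (sum_le_card_nsmul _ _ _ fun x _ => hterm x)).trans ?_
  rw [card_univ, Fintype.card_prod, Fintype.card_fin, nsmul_eq_mul, Nat.cast_mul,
    mul_left_comm]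
  refine mul_le_mul_of_nonneg_left ?_ hP0
  have hA2 : (A : ℝ) * A ≤ Real.exp (2 * A) := by
    rw [two_mul, Real.exp_add]
    have := Real.add_one_le_exp (A : ℝ)
    exact mul_le_mul (by linarith) (by linarith) (Nat.cast_nonneg _) (Real.exp_pos _).le
  refine (mul_le_mul_of_nonneg_right hA2 (Real.exp_pos _).le).trans ?_
  rw [← Real.exp_add, Real.exp_le_exp]
  have hR : 0 ≤ R := (norm_nonneg z).trans hz
  have h4 : (1 : ℝ) ≤ (R + 1) ^ 2 := one_le_pow₀ (by linarith)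
  have h5 : (‖z‖ + 1) ^ 2 ≤ (R + 1) ^ 2 := pow_le_pow_left₀ (by positivity) (by linarith) 2
  calc 2 * (A : ℝ) + (y₀ + 3 * W) * A = (2 + y₀ + 3 * W) * A := by ring
    _ ≤ (2 * (R + 1) ^ 2 + y₀ * (R + 1) ^ 2 + 3 * (C * (R + 1) ^ 2)) * A := by
        gcongr
        · linarith
        · exact le_mul_of_one_le_right hy0 h4
        · exact mul_le_mul_of_nonneg_left h5 hC
    _ = _ := by ring

/-- **The Schwarz lemma at the points.** -/
theorem exists_schwarz : ∃ Cg : ℝ, 0 ≤ Cg ∧ ∀ {A : ℕ} (coef : Fin A × Fin A → ℂ) {P : ℝ},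
    0 ≤ P → (∀ x, ‖coef x‖ ≤ P) → ∀ {N T : ℕ}, 1 ≤ N → (∀ s < T, ∀ j < N, valueAt Φ coef s j = 0) →
      ∀ {r : ℝ}, ptSize Φ * N ≤ r → ∀ z : ℂ, ‖z‖ ≤ r →
        ‖auxG Φ coef z‖ ≤ P * Real.exp (Cg * A * r ^ 2) * (1 / 2) ^ (T * N ^ 2) := by
  classical
  obtain ⟨Cg, hCg, hg⟩ := exists_growth Φ
  refine ⟨Cg * 36, by positivity, fun {A} coef {P} hP0 hP {N T} hN hzero {r} hr z hz => ?_⟩
  have hN1 : (1 : ℝ) ≤ N := by exact_mod_cast hN
  have hr1 : 1 ≤ r := (one_le_mul_of_one_le_of_one_le (one_le_ptSize Φ) hN1).trans hr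
  set Z := (range N ×ˢ range N).image fun p => pt Φ p.1 p.2
  have hcard : Z.card = N ^ 2 := by
    rw [card_image_of_injective _ (pt_injective Φ), card_product, card_range, sq]
  have hP' : ∀ z : ℂ, ‖z‖ ≤ 5 * r → ‖auxG Φ coef z‖ ≤ P * Real.exp (Cg * 36 * A * r ^ 2) :=
    fun u hu => (hg coef hP0 hP u hu).trans (by
      refine mul_le_mul_of_nonneg_left (Real.exp_le_exp.2 ?_) hP0
      calc Cg * A * (5 * r + 1) ^ 2 ≤ Cg * A * (6 * r) ^ 2 := by gcongr; linarith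
        _ = _ := by ring)
  refine (norm_le_of_zeros (differentiable_auxG Φ coef) Z T (R := 5 * r) (by linarith)
    (by linarith) (fun u hu => ?_) (fun u hu s hs => ?_) hP' hz).trans_eq ?_
  · obtain ⟨p, hp, rfl⟩ := mem_image.1 hu
    simp only [mem_product, mem_range] at hp
    linarith [norm_pt_le Φ hN hp.1 hp.2]
  · obtain ⟨p, hp, rfl⟩ := mem_image.1 hu
    simp only [mem_product, mem_range] at hp
    rw [iteratedDeriv_auxG Φ coef fun s' hs' => hzero s' (hs'.trans hs) _ hp.2,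
      hzero s hs _ hp.2, mul_zero]
  · rw [hcard, show 2 * r / (5 * r - r) = 1 / 2 by field_simp; ring]

variable {Φ} {θ : ℂ} (D : Data Φ θ)

/-- The matrix of the value. -/
def sumMat (E : ℕ) (p : Fin A × Fin A → ℤ[X]) (t j : ℕ) : Matrix (Fin D.ν) (Fin D.ν) ℤ[X] :=
  ∑ x, p x • expand (baseMat D E j) t x.1 0 x.2 0 0

theorem acts_sumMat {E : ℕ} (p : Fin A × Fin A → ℤ[X]) {t : ℕ} (hE : 2 * A + t ≤ E) (j : ℕ) :
    Acts θ D.w (sumMat D E p t j)
      (aeval θ D.q ^ E * valueAt Φ (fun x => aeval θ (p x)) t j) := by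
  rw [valueAt, mul_sum]
  refine FA.GelfondCubic.acts_sum _ _ _ fun x _ => ?_
  rw [mul_left_comm]
  exact (acts_expand D E j t _ _ _ _ _ (by omega)).smul (p x)

/-- **The auxiliary polynomials.** -/
theorem exists_aux (hθ : Transcendental ℚ θ) {E N T A : ℕ} (hT : 1 ≤ T) (hN : 1 ≤ N) (hA : 1 ≤ A)
    (hE : 2 * A + T ≤ E) (hcount : 4 * D.ν * T * N ≤ A * A) {d : ℕ} {B : ℝ} (hB : 1 ≤ B)
    (hsmall : ∀ t ≤ T, ∀ j < N, ∀ x : Fin A × Fin A,
      Small (expand (baseMat D E j) t x.1 0 x.2 0 0) d B) :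
    ∃ p : Fin A × Fin A → ℤ[X], p ≠ 0 ∧ (∀ x, (p x).natDegree ≤ d) ∧
      (∀ x, len (p x) ≤ (d + 1 : ℕ) * ((A * A * (d + 1) : ℕ) * B)) ∧
      ∀ s < T, ∀ j < N, valueAt Φ (fun x => aeval θ (p x)) s j = 0 := by
  have : Nonempty (Fin T) := ⟨⟨0, hT⟩⟩
  have : Nonempty (Fin N) := ⟨⟨0, hN⟩⟩
  have : Nonempty (Fin A) := ⟨⟨0, hA⟩⟩
  have : Nonempty (Fin D.ν) := ⟨⟨0, D.hν⟩⟩
  set i₀ : Fin D.ν := ⟨0, D.hν⟩
  have hc : 2 * (Fintype.card (Fin T × Fin N × Fin D.ν) * (d + d + 1)) ≤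
      Fintype.card (Fin A × Fin A) * (d + 1) := by
    simp only [Fintype.card_prod, Fintype.card_fin]
    calc 2 * (T * (N * D.ν) * (d + d + 1)) ≤ 2 * (T * (N * D.ν) * (2 * (d + 1))) := by
          gcongr; omega
      _ = 4 * D.ν * T * N * (d + 1) := by ring
      _ ≤ A * A * (d + 1) := Nat.mul_le_mul_right _ hcount
  obtain ⟨p, hp0, hpd, hpl, hp⟩ := exists_small_solution
    (fun (e : Fin T × Fin N × Fin D.ν) x => expand (baseMat D E e.2.1) e.1 x.1 0 x.2 0 0 i₀ e.2.2)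
    hB (fun e x => (hsmall e.1 e.1.2.le e.2.1 e.2.1.2 x i₀ e.2.2).1)
    (fun e x => (hsmall e.1 e.1.2.le e.2.1 e.2.1.2 x i₀ e.2.2).2) hc
  rw [Fintype.card_prod, Fintype.card_fin] at hpl
  refine ⟨p, hp0, hpd, hpl, fun t ht j hj => ?_⟩
  have hrow : ∀ l, sumMat D E p t j i₀ l = 0 := fun l => by
    simp only [sumMat, Matrix.sum_apply, Matrix.smul_apply, smul_eq_mul]
    rw [← hp (⟨t, ht⟩, ⟨j, hj⟩, l)]
    exact sum_congr rfl fun a _ => mul_comm _ _
  have h := congrFun (acts_sumMat D p (t := t) (E := E) (by omega) j) i₀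
  rw [mulVec, dotProduct, sum_eq_zero fun l _ => by simp [hrow l], Pi.smul_apply, smul_eq_mul,
    eq_comm, mul_eq_zero, mul_eq_zero] at h
  rcases h with (h | h) | h
  · exact absurd h (pow_ne_zero _ (aeval_ne_zero hθ D.hq))
  · exact h
  · exact absurd h (D.hw i₀)

end FA.Chudnovsky

end
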