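import Fermat.Agent.Chudnovsky.Zeta
import Fermat.Agent.GelfondCubic.Forms

/-!
# The derivatives

With `Y = zt - zt (ω / 2)` the derivatives of `℘ ^ a ℘' ^ b Y ^ c (g₂ / 2) ^ g α ^ h` are given
by one recursion, which the matrices follow too.
-/

set_option autoImplicit false

noncomputable section

open Finset Polynomial Matrix
open scoped PeriodPair

namespace FA.Chudnovsky

open FA.GelfondCubic (Small Acts len len_C len_add_le len_neg len_mul_le)

/-- The recursion of the derivative. -/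
def expand {M : Type*} [AddCommGroup M] (base : ℕ → ℕ → ℕ → ℕ → ℕ → M) :
    ℕ → ℕ → ℕ → ℕ → ℕ → ℕ → M
  | 0, a, b, c, g, h => base a b c g h
  | t + 1, a, b, c, g, h =>
    (a : ℤ) • expand base t (a - 1) (b + 1) c g h +
      (b : ℤ) • ((6 : ℤ) • expand base t (a + 2) (b - 1) c g h -
        expand base t a (b - 1) c (g + 1) h) -
      (c : ℤ) • (expand base t (a + 1) b (c - 1) g h + expand base t a b (c - 1) g (h + 1))

variable {L : PeriodPair} (Φ : Frame L)

/-- The zeta function vanishing at `ω / 2`. -/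
def ztY (z : ℂ) : ℂ := zt Φ z - zt Φ (Φ.ω / 2)

/-- The monomials. -/
def mono (z : ℂ) (a b c g h : ℕ) : ℂ :=
  ℘[L] z ^ a * ℘'[L] z ^ b * ztY Φ z ^ c * (L.g₂ / 2) ^ g * alpha Φ ^ h

theorem hasDerivAt_mono {z : ℂ} (hz : z ∉ L.lattice) (a b c g h : ℕ) :
    HasDerivAt (fun y => mono Φ y a b c g h) (expand (mono Φ z) 1 a b c g h) z := by
  have h1 := (Mazur.Weier.analyticAt_P L hz).differentiableAt.hasDerivAt
  rw [L.deriv_weierstrassP] at h1
  have h2 := (Mazur.Weier.analyticAt_P' L hz).differentiableAt.hasDerivAt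
  rw [Mazur.Weier.deriv_derivWeierstrassP L hz] at h2
  have h3 : HasDerivAt (ztY Φ) (-℘[L] z - alpha Φ) z := (hasDerivAt_zt Φ hz).sub_const _
  refine (((((h1.pow a).mul (h2.pow b)).mul (h3.pow c))).mul_const
    ((L.g₂ / 2) ^ g)).mul_const (alpha Φ ^ h) |>.congr_deriv ?_
  simp only [expand, mono, zsmul_eq_mul, Pi.pow_apply, Pi.mul_apply]
  push_cast
  ring

theorem hasDerivAt_expand {z : ℂ} (hz : z ∉ L.lattice) : ∀ t a b c g h,
    HasDerivAt (fun y => expand (mono Φ y) t a b c g h) (expand (mono Φ z) (t + 1) a b c g h) z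
  | 0, a, b, c, g, h => hasDerivAt_mono Φ hz a b c g h
  | t + 1, a, b, c, g, h => by
    have k : ∀ (n : ℤ) {f : ℂ → ℂ} {f' : ℂ}, HasDerivAt f f' z →
        HasDerivAt (fun y => n • f y) (n • f') z := fun n f f' hf => by
      simpa [zsmul_eq_mul] using hf.const_mul (n : ℂ)
    exact (((k _ (hasDerivAt_expand hz t _ _ _ _ _)).add
      (k _ ((k _ (hasDerivAt_expand hz t _ _ _ _ _)).sub
        (hasDerivAt_expand hz t _ _ _ _ _)))).sub
      (k _ ((hasDerivAt_expand hz t _ _ _ _ _).add (hasDerivAt_expand hz t _ _ _ _ _))))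

theorem iteratedDeriv_mono : ∀ (t : ℕ) {z : ℂ}, z ∉ L.lattice → ∀ a b c g h,
    iteratedDeriv t (fun y => mono Φ y a b c g h) z = expand (mono Φ z) t a b c g h
  | 0, z, _, a, b, c, g, h => by rw [iteratedDeriv_zero]; rfl
  | t + 1, z, hz, a, b, c, g, h => by
    rw [iteratedDeriv_succ]
    refine (Filter.EventuallyEq.deriv_eq ?_).trans (hasDerivAt_expand Φ hz t a b c g h).deriv
    exact (Mazur.Weier.eventually_notMem L hz).mono fun y hy =>
      iteratedDeriv_mono t hy a b c g h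

/-- The points. -/
def pt (i j : ℕ) : ℂ := Φ.ω / 2 + i * Φ.ω + j * (Φ.τ * Φ.ω)

theorem pt_notMem (i j : ℕ) : pt Φ i j ∉ L.lattice := notMem_add Φ Φ.half_notMem i j

theorem weierstrassP_add_mul (z : ℂ) (i j : ℕ) :
    ℘[L] (z + i * Φ.ω + j * (Φ.τ * Φ.ω)) = ℘[L] z ∧
      ℘'[L] (z + i * Φ.ω + j * (Φ.τ * Φ.ω)) = ℘'[L] z := by
  have h := (Φ.mem ((i : ℂ) * Φ.ω + j * (Φ.τ * Φ.ω))).2 ⟨i, j, by push_cast; ring⟩
  rw [add_assoc]
  exact ⟨L.weierstrassP_add_coe z ⟨_, h⟩, L.derivWeierstrassP_add_coe z ⟨_, h⟩⟩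

/-- The numbers `1, e₁, -2 π i / ω, g₂ / 2, α`. -/
def gen : Fin 5 → ℂ := ![1, ℘[L] (Φ.ω / 2), shiftC Φ, L.g₂ / 2, alpha Φ]

/-- The values at the points. -/
def baseVal (j a b c g h : ℕ) : ℂ :=
  if b = 0 then (((j ^ c : ℕ) : ℤ) : ℂ) *
    (gen Φ 1 ^ a * gen Φ 2 ^ c * gen Φ 3 ^ g * gen Φ 4 ^ h) else 0

theorem mono_pt (i j : ℕ) : mono Φ (pt Φ i j) = baseVal Φ j := by
  funext a b c g h
  obtain ⟨h1, h2⟩ := weierstrassP_add_mul Φ (Φ.ω / 2) i j
  simp only [mono, pt, ztY, h1, h2, zt_add_mul Φ Φ.half_notMem,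
    FA.SchneiderLang.derivWeierstrassP_half Φ.ω_mem, add_sub_cancel_left, baseVal, gen,
    Matrix.cons_val_one, Matrix.cons_val_zero, Matrix.cons_val]
  rcases Nat.eq_zero_or_pos b with rfl | hb
  · push_cast
    simp only [pow_zero]
    ring
  · simp [hb.ne', zero_pow hb.ne']

/-- The matrices. -/
structure Data (θ : ℂ) where
  /-- the degree -/
  ν : ℕ
  /-- the basis -/
  w : Fin ν → ℂ
  /-- the denominator -/
  q : ℤ[X]
  /-- the matrices -/
  M : Fin 5 → Matrix (Fin ν) (Fin ν) ℤ[X]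
  /-- the degree is positive -/
  hν : 0 < ν
  /-- no entry of the basis is zero -/
  hw : ∀ i, w i ≠ 0
  /-- the denominator is not zero -/
  hq : q ≠ 0
  /-- the action -/
  act : ∀ x, Acts θ w (M x) (aeval θ q * gen Φ x)
  /-- independence over `ℤ[θ]` -/
  indep : ∀ c : Fin ν → ℤ[X], ∑ i, aeval θ (c i) * w i = 0 → c = 0

variable {θ : ℂ} {Φ} (D : Data Φ θ)

/-- The matrices of the values at the points. -/
def baseMat (E j a b c g h : ℕ) : Matrix (Fin D.ν) (Fin D.ν) ℤ[X] :=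
  if b = 0 then C ((j ^ c : ℕ) : ℤ) •
    (D.M 1 ^ a * D.M 2 ^ c * D.M 3 ^ g * D.M 4 ^ h * D.M 0 ^ (E - (a + c + g + h))) else 0

theorem acts_baseMat {E j a b c g h : ℕ} (hE : a + b + c + g + h ≤ E) :
    Acts θ D.w (baseMat D E j a b c g h) (aeval θ D.q ^ E * baseVal Φ j a b c g h) := by
  rw [baseMat, baseVal]
  split_ifs with hb
  · have hm := (((((D.act 1).pow a).mul ((D.act 2).pow c)).mul ((D.act 3).pow g)).mul
      ((D.act 4).pow h)).mul ((D.act 0).pow (E - (a + c + g + h)))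
    refine (iff_of_eq (congrArg (Acts θ D.w _) ?_)).2 (hm.smul (C ((j ^ c : ℕ) : ℤ)))
    obtain ⟨r, rfl⟩ := Nat.exists_eq_add_of_le (show a + c + g + h ≤ E by omega)
    rw [Nat.add_sub_cancel_left, show gen Φ 0 = 1 from rfl, mul_one, map_natCast, map_natCast,
      Int.cast_natCast]
    simp only [mul_pow, pow_add]
    ring
  · simp [Acts]

theorem acts_zsmul {ν : ℕ} {w : Fin ν → ℂ} {M : Matrix (Fin ν) (Fin ν) ℤ[X]} {s : ℂ} (n : ℤ)
    (h : n ≠ 0 → Acts θ w M s) : Acts θ w (n • M) (n • s) := by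
  rcases eq_or_ne n 0 with rfl | hn
  · simp [Acts]
  · rw [Acts, map_zsmul, smul_mulVec, h hn, smul_assoc]

theorem acts_add {ν : ℕ} {w : Fin ν → ℂ} {M₁ M₂ : Matrix (Fin ν) (Fin ν) ℤ[X]} {s₁ s₂ : ℂ}
    (h₁ : Acts θ w M₁ s₁) (h₂ : Acts θ w M₂ s₂) : Acts θ w (M₁ + M₂) (s₁ + s₂) := by
  rw [Acts, map_add, add_mulVec, h₁, h₂, add_smul]

theorem acts_sub {ν : ℕ} {w : Fin ν → ℂ} {M₁ M₂ : Matrix (Fin ν) (Fin ν) ℤ[X]} {s₁ s₂ : ℂ}
    (h₁ : Acts θ w M₁ s₁) (h₂ : Acts θ w M₂ s₂) : Acts θ w (M₁ - M₂) (s₁ - s₂) := by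
  rw [Acts, map_sub, sub_mulVec, h₁, h₂, sub_smul]

theorem acts_expand (E j : ℕ) : ∀ t a b c g h, a + b + c + g + h + t ≤ E →
    Acts θ D.w (expand (baseMat D E j) t a b c g h)
      (aeval θ D.q ^ E * expand (baseVal Φ j) t a b c g h)
  | 0, _, _, _, _, _, hE => acts_baseMat D hE
  | t + 1, a, b, c, g, h, hE => by
    simp only [expand, mul_add, mul_sub, mul_smul_comm]
    exact acts_sub (acts_add (acts_zsmul _ fun _ => acts_expand E j t _ _ _ _ _ (by omega))
        (acts_zsmul _ fun hb =>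
          acts_sub (acts_zsmul _ fun _ => acts_expand E j t _ _ _ _ _ (by omega))
            (acts_expand E j t _ _ _ _ _ (by omega))))
      (acts_zsmul _ fun _ => acts_add (acts_expand E j t _ _ _ _ _ (by omega))
        (acts_expand E j t _ _ _ _ _ (by omega)))

theorem small_add {ν : ℕ} {M₁ M₂ : Matrix (Fin ν) (Fin ν) ℤ[X]} {d : ℕ} {B₁ B₂ : ℝ}
    (h₁ : Small M₁ d B₁) (h₂ : Small M₂ d B₂) : Small (M₁ + M₂) d (B₁ + B₂) := fun i j =>
  ⟨(natDegree_add_le _ _).trans (max_le (h₁ i j).1 (h₂ i j).1),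
    (len_add_le _ _).trans (add_le_add (h₁ i j).2 (h₂ i j).2)⟩

theorem small_sub {ν : ℕ} {M₁ M₂ : Matrix (Fin ν) (Fin ν) ℤ[X]} {d : ℕ} {B₁ B₂ : ℝ}
    (h₁ : Small M₁ d B₁) (h₂ : Small M₂ d B₂) : Small (M₁ - M₂) d (B₁ + B₂) := by
  rw [sub_eq_add_neg]
  exact small_add h₁ fun i j => ⟨(natDegree_neg _).trans_le (h₂ i j).1,
    (len_neg _).trans_le (h₂ i j).2⟩

theorem small_zsmul {ν : ℕ} {M : Matrix (Fin ν) (Fin ν) ℤ[X]} {d : ℕ} {B : ℝ} (n : ℤ)
    (h : n ≠ 0 → Small M d B) : Small (n • M) d (|(n : ℝ)| * B) := fun i j => by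
  rcases eq_or_ne n 0 with rfl | hn
  · simp [FA.GelfondCubic.len_zero]
  rw [Matrix.smul_apply, zsmul_eq_mul, ← Polynomial.C_eq_intCast]
  exact ⟨(natDegree_C_mul_le _ _).trans (h hn i j).1, (len_mul_le _ _).trans (by
    rw [len_C]; exact mul_le_mul_of_nonneg_left (h hn i j).2 (abs_nonneg _))⟩

theorem small_expand {ν : ℕ} {base : ℕ → ℕ → ℕ → ℕ → ℕ → Matrix (Fin ν) (Fin ν) ℤ[X]} {E d : ℕ}
    {B : ℝ} (hB : 0 ≤ B)
    (hbase : ∀ a b c g h, a + b + c + g + h ≤ E → Small (base a b c g h) d B) :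
    ∀ t a b c g h, a + b + c + g + h + t ≤ E →
      Small (expand base t a b c g h) d ((10 * (E : ℝ)) ^ t * B)
  | 0, a, b, c, g, h, hE => by simpa [expand] using hbase a b c g h hE
  | t + 1, a, b, c, g, h, hE => by
    set S := (10 * (E : ℝ)) ^ t * B with hS
    refine (small_sub (small_add
      (small_zsmul _ fun _ => small_expand hB hbase t _ _ _ _ _ (by omega))
      (small_zsmul _ fun hb =>
        small_sub (small_zsmul _ fun _ => small_expand hB hbase t _ _ _ _ _ (by omega))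
          (small_expand hB hbase t _ _ _ _ _ (by omega))))
      (small_zsmul _ fun _ => small_add (small_expand hB hbase t _ _ _ _ _ (by omega))
        (small_expand hB hbase t _ _ _ _ _ (by omega)))).mono le_rfl ?_
    have habc : ((a : ℝ) + b + c) ≤ E := by exact_mod_cast (by omega : a + b + c ≤ E)
    have h0 : 0 ≤ S := by positivity
    rw [pow_succ, show (10 * (E : ℝ)) ^ t * (10 * E) * B = 10 * E * S by rw [hS]; ring, ← hS]
    push_cast
    rw [Nat.abs_cast, Nat.abs_cast, Nat.abs_cast, abs_of_nonneg (show (0 : ℝ) ≤ 6 by norm_num)]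
    nlinarith [mul_le_mul_of_nonneg_right habc h0, mul_nonneg (Nat.cast_nonneg a : (0 : ℝ) ≤ a) h0,
      mul_nonneg (Nat.cast_nonneg b : (0 : ℝ) ≤ b) h0,
      mul_nonneg (Nat.cast_nonneg c : (0 : ℝ) ≤ c) h0]

theorem exists_small_baseMat :
    ∃ (d : ℕ) (K : ℝ), 1 ≤ K ∧ ∀ {E N j a b c g h : ℕ}, 1 ≤ N → j ≤ N → a + b + c + g + h ≤ E →
      Small (baseMat D E j a b c g h) (d * E) ((N : ℝ) ^ E * K ^ (E + 1)) := by
  set d := univ.sup fun x => univ.sup fun i => univ.sup fun l => (D.M x i l).natDegree with hd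
  set B₀ : ℝ := 1 + ∑ x, ∑ i, ∑ l, len (D.M x i l) with hB₀
  have hsM : ∀ x i l, 0 ≤ len (D.M x i l) := fun x i l => FA.GelfondCubic.len_nonneg _
  have hB1 : 1 ≤ B₀ := le_add_of_nonneg_right (sum_nonneg fun x _ => sum_nonneg fun i _ =>
    sum_nonneg fun l _ => hsM x i l)
  have hM : ∀ x, Small (D.M x) d B₀ := fun x i l => by
    constructor
    · rw [hd]
      exact le_trans (le_sup (f := fun l => (D.M x i l).natDegree) (mem_univ l))
        (le_trans (le_sup (f := fun i => univ.sup fun l => (D.M x i l).natDegree) (mem_univ i))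
          (le_sup (f := fun x => univ.sup fun i => univ.sup fun l => (D.M x i l).natDegree)
            (mem_univ x)))
    · rw [hB₀]
      have h1 : len (D.M x i l) ≤ ∑ l, len (D.M x i l) :=
        single_le_sum (f := fun l => len (D.M x i l)) (fun l _ => hsM x i l) (mem_univ l)
      have h2 : ∑ l, len (D.M x i l) ≤ ∑ i, ∑ l, len (D.M x i l) :=
        single_le_sum (f := fun i => ∑ l, len (D.M x i l))
          (fun i _ => sum_nonneg fun l _ => hsM x i l) (mem_univ i)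
      have h3 : ∑ i, ∑ l, len (D.M x i l) ≤ ∑ x, ∑ i, ∑ l, len (D.M x i l) :=
        single_le_sum (f := fun x => ∑ i, ∑ l, len (D.M x i l))
          (fun x _ => sum_nonneg fun i _ => sum_nonneg fun l _ => hsM x i l) (mem_univ x)
      linarith
  set n : ℝ := (D.ν : ℝ) with hn
  have hn1 : 1 ≤ n := by rw [hn]; exact_mod_cast D.hν
  set K : ℝ := n ^ 5 * B₀ with hK
  have hK1 : 1 ≤ K := one_le_mul_of_one_le_of_one_le (one_le_pow₀ hn1) hB1
  refine ⟨d, K, hK1, fun {E N j a b c g h} hN hj hE => ?_⟩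
  have hN1 : (1 : ℝ) ≤ N := by exact_mod_cast hN
  rw [baseMat]
  split_ifs with hb
  · obtain ⟨r, rfl⟩ := Nat.exists_eq_add_of_le (show a + c + g + h ≤ E by omega)
    rw [Nat.add_sub_cancel_left]
    refine (((((((hM 1).pow a).mul ((hM 2).pow c)).mul ((hM 3).pow g)).mul
      ((hM 4).pow h)).mul ((hM 0).pow r)).smul (C ((j ^ c : ℕ) : ℤ)) (natDegree_C _).le
      (B' := (N : ℝ) ^ (a + c + g + h + r)) ?_).mono ?_ ?_
    · rw [len_C, Int.cast_natCast, Nat.abs_cast, Nat.cast_pow]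
      exact (pow_le_pow_left₀ (Nat.cast_nonneg _) (Nat.cast_le.2 hj) c).trans
        (pow_le_pow_right₀ hN1 (by omega))
    · exact le_of_eq (by ring)
    · refine mul_le_mul_of_nonneg_left ?_ (by positivity)
      rw [← hn]
      have h4 : n ^ 4 ≤ K :=
        (pow_le_pow_right₀ hn1 (by norm_num)).trans (le_mul_of_one_le_right (by positivity) hB1)
      have h1 : n * B₀ ≤ K :=
        mul_le_mul_of_nonneg_right (le_self_pow₀ hn1 (by norm_num)) (by linarith)
      calc _ = n ^ 4 * (n * B₀) ^ (a + c + g + h + r) := by simp only [pow_add]; ring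
        _ ≤ K * K ^ (a + c + g + h + r) := by gcongr
        _ = _ := by ring
  · intro i l
    simp only [Matrix.zero_apply, natDegree_zero, FA.GelfondCubic.len_zero]
    exact ⟨Nat.zero_le _, by positivity⟩

end FA.Chudnovsky

end
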