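import Fermat.Agent.Chudnovsky.Main
import Fermat.Agent.ModularValues.Hexagonal

/-!
# The hexagonal lattice

For `g₂ = 0` the lattice is `ω (ℤ ρ + ℤ)`; the symmetry `℘ (ρ z) = ρ ℘ z` makes `α ω ²` an
algebraic multiple of `π`, so `π` and `Γ(1/3)` are algebraically independent.
-/

set_option autoImplicit false

noncomputable section

open FA.ModField (rho rho_cube rho_ne_zero)
open scoped IntermediateField Real PeriodPair

namespace FA.Chudnovsky

/-- With `g₂ = 0`: `℘ (ρ z) = ρ ℘ z`. -/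
theorem wp_rho_mul (L : PeriodPair) (h₂ : L.g₂ = 0) (z : ℂ) :
    ℘[L] ((rho : ℂ) * z) = (rho : ℂ) * ℘[L] z := by
  let e : L.lattice ≃ L.lattice :=
    { toFun := fun l => ⟨(rho : ℂ) * l.1, FA.ModularValues.rho_mul_mem L h₂ l.2⟩
      invFun := fun l => ⟨(rho : ℂ) * ((rho : ℂ) * l.1),
        FA.ModularValues.rho_mul_mem L h₂ (FA.ModularValues.rho_mul_mem L h₂ l.2)⟩
      left_inv := fun l => Subtype.ext (by
        show (rho : ℂ) * ((rho : ℂ) * ((rho : ℂ) * l.1)) = l.1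
        linear_combination (l.1 : ℂ) * rho_cube)
      right_inv := fun l => Subtype.ext (by
        show (rho : ℂ) * ((rho : ℂ) * ((rho : ℂ) * l.1)) = l.1
        linear_combination (l.1 : ℂ) * rho_cube) }
  have hinv : ((rho : ℂ) ^ 2)⁻¹ = (rho : ℂ) :=
    inv_eq_of_mul_eq_one_right (by linear_combination rho_cube)
  rw [PeriodPair.weierstrassP, PeriodPair.weierstrassP, ← e.tsum_eq, ← tsum_mul_left]
  refine tsum_congr fun l => ?_
  show 1 / ((rho : ℂ) * z - (rho : ℂ) * l.1) ^ 2 - 1 / ((rho : ℂ) * l.1) ^ 2 = _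
  rw [← mul_sub, mul_pow, mul_pow, one_div, one_div, mul_inv, mul_inv, hinv, one_div, one_div]
  ring

theorem rho_sq_ne_one : (rho : ℂ) ^ 2 ≠ 1 := fun h => by
  have h1 : (rho : ℂ) = 1 := by linear_combination rho_cube - (rho : ℂ) * h
  have := congrArg Complex.im h1
  rw [Complex.one_im, UpperHalfPlane.coe_im] at this
  exact rho.im_pos.ne' this

/-- For the hexagonal lattice `(1 - ρ ²) α ω ² = - 2 π i ρ`. -/
theorem alpha_hexagonal {L : PeriodPair} (Φ : Frame L) (hτ : Φ.τ = (rho : ℂ)) (h₂ : L.g₂ = 0) :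
    (1 - (rho : ℂ) ^ 2) * alpha Φ * Φ.ω ^ 2 = -(2 * π * Complex.I) * rho := by
  set a := alpha Φ with ha
  set r : ℂ := (rho : ℂ) with hr
  set v : ℂ → ℂ := fun z => r * zt Φ (r * z) - zt Φ z - (1 - r ^ 2) * a * z with hv
  have hR : ∀ z ∉ L.lattice, r * z ∉ L.lattice := fun z hz h => hz (by
    have := FA.ModularValues.rho_mul_mem L h₂ (FA.ModularValues.rho_mul_mem L h₂ h)
    rwa [show r * (r * (r * z)) = z by rw [hr]; linear_combination z * rho_cube] at this)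
  have hv' : ∀ z ∉ L.lattice, HasDerivAt v 0 z := fun z hz => by
    refine (((((hasDerivAt_zt Φ (hR z hz)).comp z
      ((hasDerivAt_id z).const_mul r))).const_mul r).sub
        (hasDerivAt_zt Φ hz) |>.sub ((hasDerivAt_id z).const_mul ((1 - r ^ 2) * a))).congr_deriv ?_
    rw [hr, wp_rho_mul L h₂ z, ← ha]
    linear_combination -(℘[L] z) * rho_cube
  have h0 := Φ.half_notMem
  have h1 : Φ.ω / 2 + Φ.ω ∉ L.lattice := fun h => h0 (by simpa using sub_mem h Φ.ω_mem)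
  have hc : v (Φ.ω / 2 + Φ.ω) = v (Φ.ω / 2) :=
    L.isClosed_lattice.isOpen_compl.is_const_of_deriv_eq_zero
      (Mazur.Weier.preconnected_compl (Mazur.Weier.countable_lattice L))
      (fun z hz => (hv' z hz).differentiableAt.differentiableWithinAt)
      (fun z hz => (hv' z hz).deriv) h1 h0
  have hq : zt Φ (r * (Φ.ω / 2 + Φ.ω)) = zt Φ (r * (Φ.ω / 2)) + shiftC Φ := by
    rw [mul_add, ← hτ]
    exact zt_add_quasi Φ (hτ ▸ hR _ h0)
  simp only [hv, hq, zt_add_period] at hc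
  rw [shiftC] at hc
  have hω := Φ.hω
  field_simp at hc
  linear_combination (-1 / 2 : ℂ) * hc

/-- **`π` and `Γ(1/3)` are algebraically independent.** -/
theorem chudnovsky_pi_gamma_three : AlgebraicIndependent ℚ ![π, Real.Gamma (1 / 3)] := by
  suffices h : AlgebraicIndependent ℚ ![(π : ℂ), ((Real.Gamma (1 / 3) : ℝ) : ℂ)] by
    refine AlgebraicIndependent.of_comp (Complex.ofRealAm.restrictScalars ℚ) ?_
    convert h using 1
    ext i
    fin_cases i <;> rfl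
  refine FA.BrownawellWaldschmidt.algebraicIndependent_pair transcendental_pi ?_
  intro hg
  obtain ⟨L, h2, h3⟩ := FA.JInj.exists_g₂_g₃ (a := 0) (b := 4) (by norm_num)
  obtain ⟨ω, hω, hper, hval⟩ := FA.Summary.mordellCurve_realPeriod L h2 h3
  have hmem := FA.ModularValues.mem_lattice_hexagonal L h2 h3 hω hper
  let Φ : Frame L :=
    { ω := ω, τ := rho, hω := Complex.ofReal_ne_zero.2 hω.ne',
      hτ := by rw [UpperHalfPlane.coe_im]; exact rho.im_pos,
      mem := fun x => (hmem x).trans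
        ⟨fun ⟨p, hp⟩ => ⟨p.2, p.1, by rw [hp]; ring⟩,
          fun ⟨m, n, h⟩ => ⟨(n, m), by rw [← h]; ring⟩⟩ }
  have hπ := FA.BrownawellWaldschmidt.isIntegral_self (π : ℂ)
  have hI : IsIntegral ℚ⟮(π : ℂ)⟯ Complex.I := isAlgebraic_I.isIntegral.tower_top
  have hρ : IsIntegral ℚ⟮(π : ℂ)⟯ (rho : ℂ) :=
    IsIntegral.of_pow (n := 3) (by norm_num) (by rw [rho_cube]; exact isIntegral_one)
  have hpow : IsIntegral ℚ⟮(π : ℂ)⟯ (((2 : ℝ) ^ (4 / 3 : ℝ) : ℝ) : ℂ) := by
    refine IsIntegral.of_pow (n := 3) (by norm_num) ?_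
    rw [← Complex.ofReal_pow, ← Real.rpow_natCast, ← Real.rpow_mul zero_le_two]
    norm_num
    simpa using isIntegral_natCast_adjoin (π : ℂ) 16
  have hω' : IsIntegral ℚ⟮(π : ℂ)⟯ Φ.ω := by
    show IsIntegral ℚ⟮(π : ℂ)⟯ (ω : ℂ)
    rw [hval, Complex.ofReal_div, Complex.ofReal_mul, Complex.ofReal_pow, div_eq_mul_inv]
    exact (hg.isIntegral.pow 3).mul (hpow.mul hπ).inv
  refine not_isIntegral_four Φ transcendental_pi ?_ ?_ ?_ ?_
  · rw [h2]; exact isIntegral_zero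
  · rw [h3]; simpa using isIntegral_natCast_adjoin (π : ℂ) 4
  · have e := alpha_hexagonal Φ rfl h2
    have hne : (1 - (rho : ℂ) ^ 2) * Φ.ω ^ 2 ≠ 0 :=
      mul_ne_zero (sub_ne_zero.2 rho_sq_ne_one.symm) (pow_ne_zero _ Φ.hω)
    rw [show alpha Φ = -(2 * π * Complex.I) * rho * ((1 - (rho : ℂ) ^ 2) * Φ.ω ^ 2)⁻¹ by
      rw [eq_mul_inv_iff_mul_eq₀ hne, ← e]; ring]
    have h2' : IsIntegral ℚ⟮(π : ℂ)⟯ (2 : ℂ) := by
      simpa using isIntegral_natCast_adjoin (π : ℂ) 2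
    exact (((h2'.mul hπ).mul hI).neg.mul hρ).mul
      ((isIntegral_one.sub (hρ.pow 2)).mul (hω'.pow 2)).inv
  · rw [div_eq_mul_inv]
    exact hπ.mul hω'.inv

end FA.Chudnovsky

end
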