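import Fermat.Agent.Chudnovsky.SmallPolynomial
import Fermat.Agent.GelfondCubic.Main
import Fermat.Agent.BrownawellWaldschmidt.Main
import Fermat.Agent.Root.SummaryGammaPeriods

/-!
# Chudnovsky's theorem

Two of `g₂, g₃, α, π / ω` are algebraically independent, where `α = η / ω`.  For the square
lattice `α = π / ω ²`, so `π` and `ω`, hence `π` and `Γ(1/4)`, are algebraically independent.
-/

set_option autoImplicit false

noncomputable section

open Finset Polynomial Filter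
open scoped IntermediateField Real PeriodPair

namespace FA.Chudnovsky

open FA.GelfondCubic (len gelfond_criterion)

theorem sq_log_succ_le : ∀ j : ℕ, (j + 1) ^ 2 ≤ 4 * 2 ^ j
  | 0 => by norm_num
  | 1 => by norm_num
  | 2 => by norm_num
  | j + 3 => by
    have h := sq_log_succ_le (j + 2)
    rw [pow_succ 2 (j + 2)]
    calc (j + 3 + 1) ^ 2 ≤ 2 * (j + 2 + 1) ^ 2 := by ring_nf; nlinarith [Nat.zero_le j]
      _ ≤ 2 * (4 * 2 ^ (j + 2)) := Nat.mul_le_mul_left 2 h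
      _ = _ := by ring

theorem log_succ_sq_le {N : ℕ} (hN : 1 ≤ N) : ((Nat.log 2 N : ℝ) + 1) ^ 2 ≤ 4 * N := by
  exact_mod_cast (sq_log_succ_le _).trans
    (Nat.mul_le_mul_left 4 (Nat.pow_log_le_self 2 (by omega)))

theorem not_data {L : PeriodPair} {Φ : Frame L} {θ : ℂ} (D : Data Φ θ)
    (hθ : Transcendental ℚ θ) : False := by
  obtain ⟨cD, cT, cU, hcD, hcT, hcU, hev⟩ := exists_small_polynomial D hθ
  obtain ⟨C, hC⟩ := gelfond_criterion hθ (show (0 : ℝ) ≤ 16 by norm_num)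
  set Dn : ℕ → ℝ := fun N => cD * N with hDn
  set Tn : ℕ → ℝ := fun N => cT * htUnit N with hTn
  have hD0 : (0 : ℝ) ≤ cD := by linarith
  have hT0 : (0 : ℝ) ≤ cT := by linarith
  have hNU : ∀ N : ℕ, (N : ℝ) ≤ htUnit N := fun N => le_mul_of_one_le_right (Nat.cast_nonneg _)
    (le_add_of_nonneg_left (Nat.cast_nonneg _))
  have hT : Tendsto Tn atTop atTop := tendsto_atTop_mono
    (fun N => (hNU N).trans (le_mul_of_one_le_left ((Nat.cast_nonneg N).trans (hNU N))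
      (hcD.trans hcT))) tendsto_natCast_atTop_atTop
  have hDT : ∀ᶠ N in atTop, 1 ≤ Dn N ∧ Dn N ≤ Tn N ∧ Dn N ≤ 16 * Dn (N + 1) ∧
      Tn N ≤ 16 * Tn (N + 1) ∧ Dn (N + 1) ≤ 16 * Dn N ∧ Tn (N + 1) ≤ 16 * Tn N := by
    filter_upwards [eventually_ge_atTop 1] with N hN
    have hN1 : (1 : ℝ) ≤ N := by exact_mod_cast hN
    have hl : (Nat.log 2 (N + 1) : ℝ) ≤ Nat.log 2 N + 1 := by
      exact_mod_cast FA.GelfondCubic.log_succ_le N
    have hl' : (Nat.log 2 N : ℝ) ≤ Nat.log 2 (N + 1) := by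
      exact_mod_cast Nat.log_mono_right N.le_succ
    have hu : htUnit (N + 1) ≤ 4 * htUnit N := by
      simp only [htUnit]
      push_cast
      calc ((N : ℝ) + 1) * ((Nat.log 2 (N + 1) : ℝ) + 1)
          ≤ (2 * (N : ℝ)) * (2 * ((Nat.log 2 N : ℝ) + 1)) :=
            mul_le_mul (by linarith) (by linarith [(Nat.cast_nonneg _ : (0 : ℝ) ≤ Nat.log 2 N)])
              (by positivity) (by positivity)
        _ = _ := by ring
    have hu' : htUnit N ≤ htUnit (N + 1) :=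
      mul_le_mul (Nat.cast_le.2 N.le_succ) (by linarith) (by positivity) (Nat.cast_nonneg _)
    refine ⟨one_le_mul_of_one_le_of_one_le hcD hN1,
      mul_le_mul hcT (hNU N) (Nat.cast_nonneg _) hT0, ?_, ?_, ?_, ?_⟩ <;>
      simp only [hDn, hTn] <;> push_cast
    · nlinarith
    · nlinarith [mul_le_mul_of_nonneg_left hu' hT0, hNU (N + 1),
        mul_nonneg hT0 ((Nat.cast_nonneg (α := ℝ) (N + 1)).trans (hNU (N + 1)))]
    · nlinarith
    · nlinarith [mul_le_mul_of_nonneg_left hu hT0,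
        mul_nonneg hT0 ((Nat.cast_nonneg (α := ℝ) N).trans (hNU N))]
  set X : ℝ := |C| * cD * cT + cU with hX
  have hX0 : 0 ≤ X := by positivity
  have hev' : ∀ᶠ N in atTop, ∃ P : ℤ[X], P ≠ 0 ∧ (P.natDegree : ℝ) ≤ Dn N ∧
      P.natDegree + Real.log (len P) ≤ Tn N ∧
      ‖aeval θ P‖ ≤ Real.exp (-(C * (Dn N * Tn N))) := by
    filter_upwards [hev, eventually_ge_atTop (max 1 ⌈4 * X ^ 2⌉₊)] with N hN hNb
    obtain ⟨P, hP0, hd, hs, hsm⟩ := hN
    refine ⟨P, hP0, hd, hs, hsm.trans (Real.exp_le_exp.2 ?_)⟩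
    have hN1 : (1 : ℝ) ≤ N := by exact_mod_cast (le_max_left _ _).trans hNb
    have hXN : 4 * X ^ 2 ≤ N := (Nat.le_ceil _).trans (Nat.cast_le.2 ((le_max_right _ _).trans hNb))
    set l : ℝ := (Nat.log 2 N : ℝ) + 1 with hl
    have hl0 : 0 ≤ l := by positivity
    have hl2 : l ^ 2 ≤ 4 * N := log_succ_sq_le ((le_max_left _ _).trans hNb)
    have hlX : l * X ≤ N := by
      refine le_of_pow_le_pow_left₀ two_ne_zero (Nat.cast_nonneg N) ?_
      calc (l * X) ^ 2 = l ^ 2 * X ^ 2 := mul_pow l X 2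
        _ ≤ 4 * N * X ^ 2 := mul_le_mul_of_nonneg_right hl2 (sq_nonneg X)
        _ = N * (4 * X ^ 2) := by ring
        _ ≤ N * N := mul_le_mul_of_nonneg_left hXN (Nat.cast_nonneg _)
        _ = _ := (sq _).symm
    have h1 : C * (Dn N * Tn N) ≤ |C| * cD * cT * ((N : ℝ) ^ 2 * l) := by
      calc C * (Dn N * Tn N) = C * (cD * cT * ((N : ℝ) ^ 2 * l)) := by
            simp only [hDn, hTn, htUnit, hl]; ring
        _ ≤ |C| * (cD * cT * ((N : ℝ) ^ 2 * l)) :=
            mul_le_mul_of_nonneg_right (le_abs_self C) (by positivity)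
        _ = _ := by ring
    have h2 : cU * htUnit N ≤ cU * ((N : ℝ) ^ 2 * l) := by
      refine mul_le_mul_of_nonneg_left ?_ hcU
      rw [htUnit, ← hl]
      exact mul_le_mul_of_nonneg_right (le_self_pow₀ hN1 two_ne_zero) hl0
    have h3 : X * ((N : ℝ) ^ 2 * l) ≤ (N : ℝ) ^ 3 := by
      calc X * ((N : ℝ) ^ 2 * l) = (N : ℝ) ^ 2 * (l * X) := by ring
        _ ≤ (N : ℝ) ^ 2 * N := mul_le_mul_of_nonneg_left hlX (by positivity)
        _ = _ := by ring
    rw [hX] at h3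
    linarith
  obtain ⟨N₀, hN₀⟩ := eventually_atTop.1 hev'
  choose P hP using hN₀
  refine hC Dn Tn hDT hT (fun N => if h : N₀ ≤ N then P N h else 0) ?_
  filter_upwards [eventually_ge_atTop N₀] with N hN
  rw [dif_pos hN]
  exact hP N hN

theorem isAlgebraic_I : IsAlgebraic ℚ Complex.I :=
  (IsIntegral.of_pow two_pos (by rw [Complex.I_sq]; exact isIntegral_one.neg)).isAlgebraic

theorem isIntegral_natCast_adjoin (θ : ℂ) (n : ℕ) : IsIntegral ℚ⟮θ⟯ (n : ℂ) :=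
  (isAlgebraic_natCast (R := ℚ) (A := ℂ) n).isIntegral.tower_top

theorem isIntegral_half (L : PeriodPair) (Φ : Frame L) {θ : ℂ}
    (h₂ : IsIntegral ℚ⟮θ⟯ L.g₂) (h₃ : IsIntegral ℚ⟮θ⟯ L.g₃) :
    IsIntegral ℚ⟮θ⟯ (℘[L] (Φ.ω / 2)) := by
  have he := L.derivWeierstrassP_sq (Φ.ω / 2) Φ.half_notMem
  rw [FA.SchneiderLang.derivWeierstrassP_half Φ.ω_mem] at he
  set K' := algebraicClosure ℚ⟮θ⟯ ℂ
  have hint : IsIntegral K' (℘[L] (Φ.ω / 2)) := by
    refine IsAlgebraic.isIntegral ⟨C 4 * X ^ 3 - C ⟨L.g₂, mem_algebraicClosure_iff'.2 h₂⟩ * X -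
      C ⟨L.g₃, mem_algebraicClosure_iff'.2 h₃⟩, fun h => ?_, ?_⟩
    · have h3 := congrArg (fun q => coeff q 3) h
      simp at h3
    · simp only [map_sub, map_mul, map_pow, aeval_X, aeval_C, map_ofNat]
      change 4 * ℘[L] (Φ.ω / 2) ^ 3 - L.g₂ * ℘[L] (Φ.ω / 2) - L.g₃ = 0
      linear_combination -he
  exact isIntegral_trans (A := K') _ hint

/-- No field of transcendence degree one holds `g₂, g₃, α, π / ω`. -/
theorem not_isIntegral_four {L : PeriodPair} (Φ : Frame L) {θ : ℂ} (hθ : Transcendental ℚ θ)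
    (h₂ : IsIntegral ℚ⟮θ⟯ L.g₂) (h₃ : IsIntegral ℚ⟮θ⟯ L.g₃)
    (hα : IsIntegral ℚ⟮θ⟯ (alpha Φ)) (hπ : IsIntegral ℚ⟮θ⟯ ((π : ℂ) / Φ.ω)) : False := by
  have hgen : ∀ x, IsIntegral ℚ⟮θ⟯ (gen Φ x) := fun x => by
    fin_cases x
    · exact isIntegral_one
    · exact isIntegral_half L Φ h₂ h₃
    · show IsIntegral ℚ⟮θ⟯ (shiftC Φ)
      rw [show shiftC Φ = -(2 * Complex.I) * ((π : ℂ) / Φ.ω) by rw [shiftC]; ring]
      refine ((IsIntegral.mul ?_ isAlgebraic_I.isIntegral.tower_top).neg).mul hπ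
      simpa using isIntegral_natCast_adjoin θ 2
    · show IsIntegral ℚ⟮θ⟯ (L.g₂ / 2)
      rw [div_eq_mul_inv]
      refine h₂.mul ?_
      simpa using (isIntegral_natCast_adjoin θ 2).inv
    · exact hα
  obtain ⟨ν, w, q, M, hν, hw, hq, hact, hindep⟩ :=
    FA.GelfondCubic.exists_matrices hθ (gen Φ) hgen
  exact not_data (Φ := Φ) (θ := θ) ⟨ν, w, q, M, hν, hw, hq, fun x => hact x, hindep⟩ hθ

/-- Two of `g₂, g₃, α, π / ω` are algebraically independent. -/
theorem chudnovsky_frame {L : PeriodPair} (Φ : Frame L) :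
    ∃ i j, AlgebraicIndependent ℚ ![![L.g₂, L.g₃, alpha Φ, (π : ℂ) / Φ.ω] i,
      ![L.g₂, L.g₃, alpha Φ, (π : ℂ) / Φ.ω] j] := by
  set four : Fin 4 → ℂ := ![L.g₂, L.g₃, alpha Φ, (π : ℂ) / Φ.ω] with hfour
  obtain ⟨i₀, hi₀⟩ : ∃ i, Transcendental ℚ (four i) := by
    by_contra hall
    simp only [Transcendental, not_exists, not_not] at hall
    exact FA.SchneiderLang.transcendental_pi_div_period (hall 0) (hall 1) Φ.ω_mem Φ.hω (hall 3)
  by_contra hno
  have hint : ∀ j, IsIntegral ℚ⟮four i₀⟯ (four j) := fun j => IsAlgebraic.isIntegral (by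
    by_contra hv
    exact hno ⟨i₀, j, FA.BrownawellWaldschmidt.algebraicIndependent_pair hi₀ hv⟩)
  exact not_isIntegral_four Φ hi₀ (hint 0) (hint 1) (hint 2) (hint 3)

theorem alpha_eq_of_periodic {L : PeriodPair} (Φ : Frame L) {α : ℂ} {f : ℂ → ℂ}
    (hf : ∀ z ∉ L.lattice, HasDerivAt f (-℘[L] z - α) z)
    (hper : ∀ z ∉ L.lattice, f (z + Φ.ω) = f z) : α = alpha Φ := by
  set d := alpha Φ - α with hd
  set v : ℂ → ℂ := fun z => f z - zt Φ z - d * z with hv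
  have hU := L.isClosed_lattice.isOpen_compl
  have hv' : ∀ z ∉ L.lattice, HasDerivAt v 0 z := fun z hz => by
    refine (((hf z hz).sub (hasDerivAt_zt Φ hz)).sub
      ((hasDerivAt_id z).const_mul d)).congr_deriv ?_
    rw [hd]; ring
  have h0 := Φ.half_notMem
  have h1 : Φ.ω / 2 + Φ.ω ∉ L.lattice := fun h => h0 (by simpa using sub_mem h Φ.ω_mem)
  have hc : v (Φ.ω / 2 + Φ.ω) = v (Φ.ω / 2) :=
    hU.is_const_of_deriv_eq_zero (Mazur.Weier.preconnected_compl (Mazur.Weier.countable_lattice L))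
      (fun z hz => (hv' z hz).differentiableAt.differentiableWithinAt)
      (fun z hz => (hv' z hz).deriv) h1 h0
  simp only [hv, hper _ h0, zt_add_period] at hc
  have : d * Φ.ω = 0 := by linear_combination -hc
  exact (sub_eq_zero.1 ((mul_eq_zero.1 this).resolve_right Φ.hω)).symm

/-- For the square lattice `α = π / ω ²`. -/
theorem alpha_square {L : PeriodPair} (Φ : Frame L) (hτ : Φ.τ = Complex.I) (h₃ : L.g₃ = 0) :
    alpha Φ = (π : ℂ) / Φ.ω ^ 2 := by
  set a := alpha Φ with ha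
  set v : ℂ → ℂ := fun z => Complex.I * zt Φ (Complex.I * z) - zt Φ z - 2 * a * z with hv
  have hI : ∀ z ∉ L.lattice, Complex.I * z ∉ L.lattice := fun z hz h => hz (by
    have := FA.RealPoints.I_mul_mem L h₃ h
    rwa [← mul_assoc, Complex.I_mul_I, neg_one_mul, neg_mem_iff] at this)
  have hv' : ∀ z ∉ L.lattice, HasDerivAt v 0 z := fun z hz => by
    refine (((((hasDerivAt_zt Φ (hI z hz)).comp z
      ((hasDerivAt_id z).const_mul Complex.I))).const_mul Complex.I).sub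
        (hasDerivAt_zt Φ hz) |>.sub ((hasDerivAt_id z).const_mul (2 * a))).congr_deriv ?_
    rw [FA.RealPoints.wp_I_mul L h₃ z, ← ha]
    linear_combination (℘[L] z - a) * Complex.I_sq
  have h0 := Φ.half_notMem
  have h1 : Φ.ω / 2 + Φ.ω ∉ L.lattice := fun h => h0 (by simpa using sub_mem h Φ.ω_mem)
  have hc : v (Φ.ω / 2 + Φ.ω) = v (Φ.ω / 2) :=
    L.isClosed_lattice.isOpen_compl.is_const_of_deriv_eq_zero
      (Mazur.Weier.preconnected_compl (Mazur.Weier.countable_lattice L))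
      (fun z hz => (hv' z hz).differentiableAt.differentiableWithinAt)
      (fun z hz => (hv' z hz).deriv) h1 h0
  have hq : zt Φ (Complex.I * (Φ.ω / 2 + Φ.ω)) = zt Φ (Complex.I * (Φ.ω / 2)) + shiftC Φ := by
    rw [mul_add, ← hτ]
    exact zt_add_quasi Φ (hτ ▸ hI _ h0)
  simp only [hv, hq, zt_add_period] at hc
  rw [shiftC] at hc
  have hω := Φ.hω
  field_simp at hc ⊢
  linear_combination (-1 / 2 : ℂ) * hc - (π : ℂ) * Complex.I_sq

theorem transcendental_pi : Transcendental ℚ (π : ℂ) := fun h =>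
  FA.HermiteLindemann.transcendental_exp
    (mul_ne_zero (Complex.ofReal_ne_zero.2 Real.pi_ne_zero) Complex.I_ne_zero)
    (h.mul isAlgebraic_I) (by rw [Complex.exp_pi_mul_I]; exact isAlgebraic_one.neg)

/-- **Chudnovsky, 1976.** -/
theorem chudnovsky_pi_gamma : AlgebraicIndependent ℚ ![π, Real.Gamma (1 / 4)] := by
  suffices h : AlgebraicIndependent ℚ ![(π : ℂ), ((Real.Gamma (1 / 4) : ℝ) : ℂ)] by
    refine AlgebraicIndependent.of_comp (Complex.ofRealAm.restrictScalars ℚ) ?_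
    convert h using 1
    ext i
    fin_cases i <;> rfl
  refine FA.BrownawellWaldschmidt.algebraicIndependent_pair transcendental_pi ?_
  intro hg
  obtain ⟨L, h2, h3⟩ := FA.JInj.exists_g₂_g₃ (a := 4) (b := 0) (by norm_num)
  have h₂ : L.g₂ = ((4 * (1 : ℝ) ^ 2 : ℝ) : ℂ) := by rw [h2]; norm_num
  obtain ⟨ω, hω, hper, hval⟩ := FA.Summary.congruentCurve_realPeriod L one_pos h₂ h3
  have hmem := FA.RealPoints.mem_lattice_square L h₂ h3 hω hper one_pos (by norm_num)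
    (fun t ht => by nlinarith [one_lt_pow₀ ht two_ne_zero])
  let Φ : Frame L :=
    { ω := ω, τ := Complex.I, hω := Complex.ofReal_ne_zero.2 hω.ne', hτ := by simp,
      mem := fun x => (hmem x).trans
        ⟨fun ⟨p, hp⟩ => ⟨p.1, p.2, by rw [hp]; ring⟩,
          fun ⟨m, n, h⟩ => ⟨(m, n), by rw [← h]; ring⟩⟩ }
  have hπ := FA.BrownawellWaldschmidt.isIntegral_self (π : ℂ)
  have h2' : IsIntegral ℚ⟮(π : ℂ)⟯ (2 : ℂ) := by
    simpa using isIntegral_natCast_adjoin (π : ℂ) 2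
  have hsq : IsIntegral ℚ⟮(π : ℂ)⟯ ((√(2 * π * 1) : ℝ) : ℂ) := by
    refine IsIntegral.of_pow two_pos ?_
    rw [← Complex.ofReal_pow, Real.sq_sqrt (by positivity)]
    push_cast
    simpa using h2'.mul hπ
  have hω' : IsIntegral ℚ⟮(π : ℂ)⟯ Φ.ω := by
    show IsIntegral ℚ⟮(π : ℂ)⟯ (ω : ℂ)
    rw [hval]
    push_cast
    rw [div_eq_mul_inv]
    exact (hg.isIntegral.pow 2).mul (h2'.mul hsq).inv
  refine not_isIntegral_four Φ transcendental_pi ?_ ?_ ?_ ?_
  · rw [h2]; simpa using isIntegral_natCast_adjoin (π : ℂ) 4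
  · rw [h3]; exact isIntegral_zero
  · rw [alpha_square Φ rfl h3, div_eq_mul_inv]
    exact hπ.mul (hω'.pow 2).inv
  · rw [div_eq_mul_inv]
    exact hπ.mul hω'.inv

end FA.Chudnovsky

end
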