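import Fermat.Agent.Chudnovsky.Construction
import Fermat.Agent.GelfondCubic.Parameters
import Mathlib.Analysis.Calculus.InverseFunctionTheorem.Deriv

/-!
# The zero estimate

If the derivatives of order below `M N` vanish at all the points, the values at the translates of
a disc by `j τ ω`, `j < A`, are tiny, and interpolation in `Y` and in `℘` kills the coefficients.
-/

set_option autoImplicit false

noncomputable section

open Finset Filter
open scoped Topology PeriodPair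

namespace FA.Chudnovsky

variable {L : PeriodPair} (Φ : Frame L)

theorem exists_regular : ∃ ζ : ℂ, ζ ∉ L.lattice ∧ 0 < (ζ / Φ.ω).im ∧ deriv ℘[L] ζ ≠ 0 := by
  obtain ⟨z, hz, hd⟩ : ∃ z, z ∉ L.lattice ∧ deriv ℘[L] z ≠ 0 := by
    by_contra! hall
    have hz := Φ.half_notMem
    obtain ⟨ε, hε, hball⟩ := Metric.isOpen_iff.1 L.isClosed_lattice.isOpen_compl _ hz
    refine not_eventually_const (L := L) hz (℘[L] (Φ.ω / 2)) ?_
    filter_upwards [Metric.ball_mem_nhds _ hε] with y hy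
    exact Metric.isOpen_ball.is_const_of_deriv_eq_zero
      (convex_ball _ _).isPreconnected
      (fun w hw => (L.analyticOnNhd_weierstrassP w
        (hball hw)).differentiableAt.differentiableWithinAt)
      (fun w hw => hall w (hball hw)) hy (Metric.mem_ball_self hε)
  obtain ⟨n, hn⟩ := exists_nat_gt (-(z / Φ.ω).im / Φ.τ.im)
  refine ⟨z + ((0 : ℕ) : ℂ) * Φ.ω + n * (Φ.τ * Φ.ω), notMem_add Φ hz 0 n, ?_, ?_⟩
  · rw [show (z + ((0 : ℕ) : ℂ) * Φ.ω + n * (Φ.τ * Φ.ω)) / Φ.ω = z / Φ.ω + n * Φ.τ by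
      field_simp [Φ.hω]; simp, Complex.add_im]
    rw [div_lt_iff₀ Φ.hτ] at hn
    simp only [Complex.mul_im, Complex.natCast_re, Complex.natCast_im, zero_mul, add_zero]
    linarith
  · rw [L.deriv_weierstrassP] at hd ⊢
    rwa [(weierstrassP_add_mul Φ z 0 n).2]

theorem mul_self_pow_le_exp {K : ℝ} (hK : 0 ≤ K) (A : ℕ) :
    (K * A) ^ A ≤ Real.exp (K * (A : ℝ) ^ 2) := by
  refine (pow_le_pow_left₀ (by positivity)
    ((le_add_of_nonneg_right zero_le_one).trans (Real.add_one_le_exp _)) A).trans_eq ?_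
  rw [← Real.exp_nat_mul]; ring_nf

/-- **The zero estimate.** -/
theorem exists_value_ne_zero : ∃ c : ℝ, 0 ≤ c ∧ ∀ {A N M : ℕ} (coef : Fin A × Fin A → ℂ),
    coef ≠ 0 → 1 ≤ N → N ≤ A → c * (A : ℝ) ^ 3 < M * (N : ℝ) ^ 3 →
      ∃ t < M * N, ∃ j < N, valueAt Φ coef t j ≠ 0 := by
  classical
  obtain ⟨Cg, hCg, hs⟩ := exists_schwarz Φ
  obtain ⟨ζ, hζ, hζim, hζd⟩ := exists_regular Φ
  have hth := th_ne_zero Φ hζ
  set η := ‖th Φ ζ‖ / 2 with hη
  have hη0 : 0 < η := by positivity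
  set y₁ := ‖ztY Φ ζ‖ + 1 with hy₁
  have hY : ContinuousAt (fun z => ‖ztY Φ z‖) ζ :=
    (((hasDerivAt_zt Φ hζ).continuousAt).sub continuousAt_const).norm
  have him : ContinuousAt (fun z : ℂ => (z / Φ.ω).im) ζ := by fun_prop
  have hV : ∀ᶠ y in 𝓝 ζ, y ∉ L.lattice ∧ 0 < (y / Φ.ω).im ∧ ‖y‖ < ‖ζ‖ + 1 ∧ η < ‖th Φ y‖ ∧
      ‖ztY Φ y‖ < y₁ :=
    (Mazur.Weier.eventually_notMem L hζ).and ((him.eventually_const_lt hζim).and
      (((continuous_norm.continuousAt).eventually_lt_const (by linarith)).and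
        (((differentiable_th Φ).continuous.norm.continuousAt.eventually_const_lt
          (half_lt_self (norm_pos_iff.2 hth))).and (hY.eventually_lt_const (by linarith)))))
  have hmap : Filter.map ℘[L] (𝓝 ζ) = 𝓝 (℘[L] ζ) :=
    ((L.analyticOnNhd_weierstrassP ζ hζ).hasStrictDerivAt).map_nhds_eq hζd
  have himg : ℘[L] '' {y | y ∉ L.lattice ∧ 0 < (y / Φ.ω).im ∧ ‖y‖ < ‖ζ‖ + 1 ∧ η < ‖th Φ y‖ ∧
      ‖ztY Φ y‖ < y₁} ∈ 𝓝 (℘[L] ζ) := hmap ▸ image_mem_map hV
  obtain ⟨ρ, hρ, hball⟩ := Metric.mem_nhds_iff.1 himg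
  set C₁ := ptSize Φ + (‖ζ‖ + 1 + ‖Φ.τ * Φ.ω‖) with hC₁
  have hc0 : 0 < ‖shiftC Φ‖ := by
    simp [shiftC, Φ.hω, Real.pi_ne_zero]
  set Ky := (1 + y₁ + ‖shiftC Φ‖) / min 1 ‖shiftC Φ‖ with hKy
  set Kx := (1 + ‖℘[L] ζ‖ + ρ) / min 1 ρ with hKx
  have hy₁0 : 0 ≤ y₁ := by positivity
  have hKy0 : 0 ≤ Ky := div_nonneg (by positivity) (le_min zero_le_one hc0.le)
  have hKx0 : 0 ≤ Kx := div_nonneg (by positivity) (le_min zero_le_one hρ.le)
  set c' := 2 + Ky + Kx + 3 * η⁻¹ + Cg * C₁ ^ 2 with hc'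
  refine ⟨2 * c', by positivity, fun {A N M} coef hcoef hN hNA hlt => ?_⟩
  by_contra! hall
  obtain ⟨x₀, hx₀⟩ : ∃ x₀, coef x₀ ≠ 0 := Function.ne_iff.1 hcoef
  have : Nonempty (Fin A × Fin A) := ⟨x₀⟩
  obtain ⟨xm, hxm⟩ := Finite.exists_max fun x => ‖coef x‖
  set P := ‖coef xm‖ with hP
  have hP0 : 0 < P := (norm_pos_iff.2 hx₀).trans_le (hxm x₀)
  have hA1 : (1 : ℝ) ≤ A := by exact_mod_cast hN.trans hNA
  set r := C₁ * A with hr
  have hC₁0 : ptSize Φ ≤ C₁ := le_add_of_nonneg_right (by positivity)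
  have hsize := one_le_ptSize Φ
  have hrN : ptSize Φ * N ≤ r :=
    mul_le_mul hC₁0 (Nat.cast_le.2 hNA) (Nat.cast_nonneg _) (by linarith)
  set n := M * N * N ^ 2 with hn
  set ε := P * Real.exp (Cg * A * r ^ 2) * (1 / 2) ^ n * η⁻¹ ^ (3 * A) with hε
  have hε0 : 0 ≤ ε := by positivity
  have hF : ∀ y, y ∉ L.lattice → 0 < (y / Φ.ω).im → ‖y‖ < ‖ζ‖ + 1 → η < ‖th Φ y‖ →
      ∀ j < A, ‖∑ b : Fin A, (∑ a : Fin A, coef (a, b) * ℘[L] y ^ (a : ℕ)) *
        (ztY Φ y + j * shiftC Φ) ^ (b : ℕ)‖ ≤ ε := fun y hy hyim hyn hyth j hj => by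
    set z := y + ((0 : ℕ) : ℂ) * Φ.ω + j * (Φ.τ * Φ.ω) with hz
    have hz' := notMem_add Φ hy 0 j
    have hzr : ‖z‖ ≤ r := by
      rw [hz, Nat.cast_zero, zero_mul, add_zero]
      refine (norm_add_le _ _).trans ?_
      rw [norm_mul (j : ℂ), Complex.norm_natCast]
      have hj' : (j : ℝ) ≤ A := by exact_mod_cast hj.le
      calc ‖y‖ + j * ‖Φ.τ * Φ.ω‖ ≤ (‖ζ‖ + 1) * A + A * ‖Φ.τ * Φ.ω‖ :=
            add_le_add (hyn.le.trans (le_mul_of_one_le_right (by positivity) hA1))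
              (mul_le_mul_of_nonneg_right hj' (norm_nonneg _))
        _ = (‖ζ‖ + 1 + ‖Φ.τ * Φ.ω‖) * A := by ring
        _ ≤ r := mul_le_mul_of_nonneg_right (le_add_of_nonneg_left (by linarith))
            (Nat.cast_nonneg _)
    have hG := hs coef hP0.le hxm hN (T := M * N) hall hrN z hzr
    rw [auxG_eq Φ coef hz', norm_mul, norm_pow] at hG
    have hthz : η ≤ ‖th Φ z‖ := hyth.le.trans (norm_th_le_shift Φ hyim.le 0 j)
    have hFz : auxF Φ coef z = ∑ b : Fin A, (∑ a : Fin A, coef (a, b) * ℘[L] y ^ (a : ℕ)) *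
        (ztY Φ y + j * shiftC Φ) ^ (b : ℕ) := by
      simp only [auxF, mono, sum_mul, Fintype.sum_prod_type_right]
      refine sum_congr rfl fun b _ => sum_congr rfl fun a _ => ?_
      rw [hz, (weierstrassP_add_mul Φ y 0 j).1, ztY, ztY, zt_add_mul Φ hy]
      ring
    rw [← hFz, hε, inv_pow, ← div_eq_mul_inv, le_div_iff₀ (by positivity), mul_comm]
    exact (mul_le_mul_of_nonneg_right (pow_le_pow_left₀ hη0.le hthz _) (norm_nonneg _)).trans hG
  set ε₁ := A * ε * (Ky * A) ^ A with hε₁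
  have hA0 : (0 : ℝ) < A := by linarith
  have hcol : ∀ i < A, ∀ b : Fin A,
      ‖∑ a : Fin A, coef (a, b) * (℘[L] ζ + i * ((ρ / A : ℝ) : ℂ)) ^ (a : ℕ)‖ ≤ ε₁ := by
    intro i hi b
    have hmem : ℘[L] ζ + i * ((ρ / A : ℝ) : ℂ) ∈ Metric.ball (℘[L] ζ) ρ := by
      rw [Metric.mem_ball, dist_eq_norm, add_sub_cancel_left, norm_mul, Complex.norm_natCast,
        Complex.norm_real, Real.norm_of_nonneg (by positivity)]
      calc (i : ℝ) * (ρ / A) < A * (ρ / A) := by gcongr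
        _ = ρ := by field_simp
    obtain ⟨y, ⟨hy, hyim, hyn, hyth, hyY⟩, hyx⟩ := hball hmem
    rw [← hyx]
    refine (norm_coeff_le_of_values (fun b : Fin A => ∑ a : Fin A, coef (a, b) * ℘[L] y ^ (a : ℕ))
      (norm_pos_iff.1 hc0) (hF y hy hyim hyn hyth) b).trans ?_
    rw [hε₁]
    refine mul_le_mul_of_nonneg_left (pow_le_pow_left₀ (div_nonneg (by positivity)
      (le_min zero_le_one hc0.le)) ?_ _) (by positivity)
    rw [hKy, div_mul_eq_mul_div]
    refine div_le_div_of_nonneg_right ?_ (le_min zero_le_one hc0.le)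
    nlinarith [norm_nonneg (ztY Φ y), norm_nonneg (shiftC Φ)]
  have hmain : P ≤ A * ε₁ * (Kx * A) ^ A := by
    refine (norm_coeff_le_of_values (fun a => coef (a, xm.2)) (x₀ := ℘[L] ζ)
      (h := ((ρ / A : ℝ) : ℂ)) (Complex.ofReal_ne_zero.2 (div_ne_zero hρ.ne' hA0.ne'))
      (fun i hi => hcol i hi xm.2) xm.1).trans ?_
    refine mul_le_mul_of_nonneg_left (pow_le_pow_left₀ (div_nonneg (by positivity)
      (le_min zero_le_one (norm_nonneg _))) ?_ _) (by positivity)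
    rw [Complex.norm_real, Real.norm_of_nonneg (by positivity), mul_div_cancel₀ _ hA0.ne', hKx,
      div_mul_eq_mul_div]
    have hmin : 0 < min 1 ρ := lt_min one_pos hρ
    have hmin' : min 1 ρ ≤ A * min 1 (ρ / A) := by
      rcases le_total 1 (ρ / A) with h | h
      · rw [min_eq_left h, mul_one]
        exact (min_le_left _ _).trans hA1
      · rw [min_eq_right h, mul_div_cancel₀ _ hA0.ne']
        exact min_le_right _ _
    rw [div_le_div_iff₀ (lt_min one_pos (by positivity)) hmin, mul_assoc]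
    exact mul_le_mul_of_nonneg_left hmin' (by positivity)
  have hA2 : (A : ℝ) * A ≤ Real.exp (2 * A) := by
    rw [two_mul, Real.exp_add]
    have := Real.add_one_le_exp (A : ℝ)
    exact mul_le_mul (by linarith) (by linarith) (Nat.cast_nonneg _) (Real.exp_pos _).le
  have hhalf : (1 / 2 : ℝ) ^ n ≤ Real.exp (-((n : ℝ) / 2)) := by
    rw [one_div, inv_pow]; exact FA.GelfondCubic.inv_two_pow_le n
  have hη' : η⁻¹ ^ (3 * A) ≤ Real.exp (3 * η⁻¹ * A) := by
    refine (pow_le_pow_left₀ (inv_nonneg.2 hη0.le)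
      ((le_add_of_nonneg_right zero_le_one).trans (Real.add_one_le_exp _)) _).trans_eq ?_
    rw [← Real.exp_nat_mul]; push_cast; ring_nf
  have hfin : P ≤ P * Real.exp (c' * (A : ℝ) ^ 3 - (n : ℝ) / 2) := by
    refine hmain.trans ?_
    calc (A : ℝ) * ε₁ * (Kx * A) ^ A = P * ((A * A) * (Ky * A) ^ A * (Kx * A) ^ A *
          Real.exp (Cg * A * r ^ 2) * (1 / 2) ^ n * η⁻¹ ^ (3 * A)) := by rw [hε₁, hε]; ring
      _ ≤ P * (Real.exp (2 * A) * Real.exp (Ky * (A : ℝ) ^ 2) * Real.exp (Kx * (A : ℝ) ^ 2) *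
          Real.exp (Cg * A * r ^ 2) * Real.exp (-((n : ℝ) / 2)) * Real.exp (3 * η⁻¹ * A)) := by
          gcongr
          · exact mul_self_pow_le_exp hKy0 A
          · exact mul_self_pow_le_exp hKx0 A
      _ ≤ _ := by
          refine mul_le_mul_of_nonneg_left ?_ hP0.le
          simp only [← Real.exp_add]
          refine Real.exp_le_exp.2 ?_
          have h1 : (A : ℝ) ≤ (A : ℝ) ^ 3 := le_self_pow₀ hA1 (by norm_num)
          have h2 : (A : ℝ) ^ 2 ≤ (A : ℝ) ^ 3 := pow_le_pow_right₀ hA1 (by norm_num)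
          have hr2 : Cg * A * r ^ 2 = Cg * C₁ ^ 2 * (A : ℝ) ^ 3 := by rw [hr]; ring
          rw [hr2, hc']
          linarith [mul_le_mul_of_nonneg_left h2 hKy0, mul_le_mul_of_nonneg_left h2 hKx0,
            mul_le_mul_of_nonneg_left h1 (show 0 ≤ 3 * η⁻¹ by positivity)]
  have hneg : c' * (A : ℝ) ^ 3 - (n : ℝ) / 2 < 0 := by
    rw [hn]; push_cast; linarith
  exact absurd hfin (not_le.2 (mul_lt_of_lt_one_right hP0 (Real.exp_lt_one_iff.2 hneg)))

end FA.Chudnovsky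

end
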