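import Fermat.Agent.Chudnovsky.NonVanishing
import Fermat.Agent.GelfondCubic.SmallPolynomial

/-!
# The small polynomial

All the parameters are multiples of `N`: the degrees are `O (N)`, the heights `O (N log N)` and
the value `exp (-N ³)`.
-/

set_option autoImplicit false

noncomputable section

open Finset Polynomial Filter

namespace FA.Chudnovsky

open FA.GelfondCubic (Small len mul_le_exp pow_le_exp nat_succ_le_exp cast_le_exp nat_le_exp_log
  inv_two_pow_le exists_norm_poly_basis small_sum norm_aeval_le one_le_len aeval_ne_zero)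

/-- The unit of the heights. -/
def htUnit (N : ℕ) : ℝ := N * ((Nat.log 2 N : ℝ) + 1)

variable {L : PeriodPair} {Φ : Frame L} {θ : ℂ}

/-- **The small polynomial.** -/
theorem exists_small_polynomial (D : Data Φ θ) (hθ : Transcendental ℚ θ) :
    ∃ cD cT cU : ℝ, 1 ≤ cD ∧ cD ≤ cT ∧ 0 ≤ cU ∧ ∀ᶠ N : ℕ in atTop, ∃ P : ℤ[X], P ≠ 0 ∧
      (P.natDegree : ℝ) ≤ cD * N ∧ P.natDegree + Real.log (len P) ≤ cT * htUnit N ∧
      ‖aeval θ P‖ ≤ Real.exp (cU * htUnit N - (N : ℝ) ^ 3) := by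
  classical
  obtain ⟨d, K, hK, hbase⟩ := exists_small_baseMat D
  obtain ⟨Cg, hCg, hs⟩ := exists_schwarz Φ
  obtain ⟨cZ, hcZ, hz⟩ := exists_value_ne_zero Φ
  set C₀ := ptSize Φ with hC₀
  have hC₀1 : 1 ≤ C₀ := one_le_ptSize Φ
  set m : ℕ := ⌈2 * (Cg * C₀ ^ 2 + 1)⌉₊ with hm
  have hm' : 2 * (Cg * C₀ ^ 2 + 1) ≤ m := Nat.le_ceil _
  have hm1 : 1 ≤ m := Nat.one_le_ceil_iff.2 (by positivity)
  set k := 4 * D.ν * m with hk
  have hk1 : 1 ≤ k := Nat.mul_pos (Nat.mul_pos (by norm_num) D.hν) hm1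
  set M : ℕ := ⌈cZ * (k : ℝ) ^ 3⌉₊ + k * m + 1 with hM
  have hMc : cZ * (k : ℝ) ^ 3 < M := by
    have := Nat.le_ceil (cZ * (k : ℝ) ^ 3)
    have : (0 : ℝ) ≤ (k : ℝ) * m := by positivity
    rw [hM]; push_cast; linarith
  set e : ℕ := 2 * k + M with he
  set ν : ℝ := (D.ν : ℝ) with hν
  have hν1 : 1 ≤ ν := by rw [hν]; exact_mod_cast D.hν
  set Θ := max 1 ‖θ‖ with hΘ
  have hΘ1 : 1 ≤ Θ := le_max_left _ _
  set η := ‖th Φ (Φ.ω / 2)‖ with hη
  have hη0 : 0 < η := norm_pos_iff.2 (th_ne_zero Φ Φ.half_notMem)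
  set cδ : ℝ := d * e with hcδ
  have hcδ0 : 0 ≤ cδ := by positivity
  set cB : ℝ := (10 * e * e + e) + (e + K * (e + 1)) with hcB
  set cp : ℝ := cδ + (2 * k + cδ + cB) with hcp
  set cG : ℝ := 2 * k + (cp + cB) with hcG
  set cY : ℝ := ν + 1 + (cG + Θ * (2 * cδ)) with hcY
  set cS := ∑ i, ∑ j, ‖D.w j‖ / ‖D.w i‖ with hcS
  have hcS0 : 0 ≤ cS := sum_nonneg fun _ _ => sum_nonneg fun _ _ => by positivity
  set cg : ℝ := η⁻¹ * (3 * k) + ((e * e + e) + (cp + Θ * cδ)) with hcg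
  refine ⟨2 * ν * cδ + 1, 2 * ν * cδ + 1 + ν * (ν + cG),
    ‖aeval θ D.q‖ * e + cg + (cS + ν * cY), le_add_of_nonneg_left (by positivity),
    le_add_of_nonneg_right (by positivity), by positivity, ?_⟩
  filter_upwards [eventually_ge_atTop 1] with N hN
  have hN1 : (1 : ℝ) ≤ N := by exact_mod_cast hN
  set U := htUnit N with hU
  have hNU : (N : ℝ) ≤ U := le_mul_of_one_le_right (Nat.cast_nonneg _)
    (le_add_of_nonneg_left (Nat.cast_nonneg _))
  have hU1 : 1 ≤ U := hN1.trans hNU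
  set A := k * N with hA
  set T := k * m * N with hT
  set E := e * N with hE
  have hTM : T ≤ M * N := Nat.mul_le_mul_right _ (by omega)
  have hAE : 2 * A + M * N ≤ E := le_of_eq (by rw [hA, hE, he]; ring)
  have hA1 : 1 ≤ A := Nat.mul_pos hk1 hN
  have hEU : ∀ c : ℝ, 0 ≤ c → ∀ n : ℕ, (n : ℝ) ≤ c * N → (n : ℝ) ≤ c * U := fun c hc n hn =>
    hn.trans (mul_le_mul_of_nonneg_left hNU hc)
  have hE' : (E : ℝ) ≤ (e : ℝ) * U := hEU e (Nat.cast_nonneg _) E (by rw [hE]; push_cast; rfl)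
  have hNe : ∀ n : ℕ, n ≤ E → (N : ℝ) ^ n ≤ Real.exp ((e : ℝ) * U) := fun n hn => by
    refine (pow_le_pow_right₀ hN1 hn).trans
      ((pow_le_pow_left₀ (Nat.cast_nonneg _) (nat_le_exp_log N) E).trans_eq ?_)
    rw [← Real.exp_nat_mul, hE, hU, htUnit]; push_cast; ring_nf
  set δ := d * E with hδ
  have hδN : (δ : ℝ) ≤ cδ * N := by rw [hδ, hE, hcδ]; push_cast; linarith
  have hδU : (δ : ℝ) ≤ cδ * U := hEU cδ hcδ0 δ hδN
  have h2δ : ((δ + δ : ℕ) : ℝ) ≤ 2 * cδ * U := by push_cast; linarith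
  set B := (10 * (E : ℝ)) ^ E * ((N : ℝ) ^ E * K ^ (E + 1)) with hB
  have hE1 : 1 ≤ E := Nat.mul_pos (by omega) hN
  have h10 : (1 : ℝ) ≤ 10 * (E : ℝ) := by
    have : (1 : ℝ) ≤ E := by exact_mod_cast hE1
    linarith
  have hB1 : 1 ≤ B := one_le_mul_of_one_le_of_one_le (one_le_pow₀ h10)
    (one_le_mul_of_one_le_of_one_le (one_le_pow₀ hN1) (one_le_pow₀ hK))
  have hBU : B ≤ Real.exp (cB * U) := by
    refine mul_le_exp (by positivity) ?_ (mul_le_exp (by positivity) (hNe E le_rfl)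
      (pow_le_exp (by linarith) (e := (e : ℝ) + 1) ?_))
    · have h1 : ((10 * e : ℝ)) ^ E ≤ Real.exp (10 * e * e * U) := pow_le_exp (by positivity) hE'
      calc (10 * (E : ℝ)) ^ E = (10 * e : ℝ) ^ E * (N : ℝ) ^ E := by
            rw [hE, Nat.cast_mul, ← mul_assoc, mul_pow]
        _ ≤ _ := mul_le_exp (by positivity) h1 (hNe E le_rfl)
    · push_cast; linarith
  have hsmall : ∀ t, t + 2 * A ≤ E → ∀ j < N, ∀ x : Fin A × Fin A,
      Small (expand (baseMat D E j) t x.1 0 x.2 0 0) δ B := fun t ht j hj x =>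
    (small_expand (by positivity) (fun a b c g h hh => hbase hN hj.le hh) t _ _ _ _ _
      (by omega)).mono le_rfl
      (mul_le_mul_of_nonneg_right (pow_le_pow_right₀ h10 (by omega)) (by positivity))
  obtain ⟨p, hp0, hpd, hpl, hzero⟩ := exists_aux D hθ (E := E) (N := N) (T := T) (A := A)
    (Nat.mul_pos (Nat.mul_pos hk1 hm1) hN) hN hA1 (by omega) (le_of_eq (by
      rw [hA, hT, hk]; ring)) hB1 fun t ht j hj x => hsmall t (by omega) j hj x
  set coef : Fin A × Fin A → ℂ := fun x => aeval θ (p x) with hcoef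
  have hcoef0 : coef ≠ 0 := fun h => hp0 (funext fun x => by
    by_contra hne
    exact aeval_ne_zero hθ hne (congrFun h x))
  -- the first nonzero value
  have hex : ∃ t, t < M * N ∧ ∃ j < N, valueAt Φ coef t j ≠ 0 := hz coef hcoef0 hN
    (Nat.le_mul_of_pos_left _ hk1) (by
      rw [hA]; push_cast; rw [mul_pow, ← mul_assoc]
      exact mul_lt_mul_of_pos_right hMc (by positivity))
  set t := Nat.find hex with htdef
  obtain ⟨ht, j, hj, hne⟩ : t < M * N ∧ ∃ j < N, valueAt Φ coef t j ≠ 0 := Nat.find_spec hex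
  have hmin : ∀ s < t, valueAt Φ coef s j = 0 := fun s hs => by
    by_contra h
    exact Nat.find_min hex hs ⟨hs.trans ht, j, hj, h⟩
  set Lp := ((δ + 1 : ℕ) : ℝ) * ((A * A * (δ + 1) : ℕ) * B) with hLp
  have hLp0 : 0 ≤ Lp := by positivity
  have hAA : ((A * A : ℕ) : ℝ) ≤ Real.exp (2 * k * U) := by
    have hAU : (A : ℝ) ≤ (k : ℝ) * U := hEU k (Nat.cast_nonneg _) A (by rw [hA]; push_cast; rfl)
    have h2 : (A : ℝ) ≤ Real.exp ((k : ℝ) * U) :=
      hAU.trans ((le_add_of_nonneg_right zero_le_one).trans (Real.add_one_le_exp _))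
    rw [Nat.cast_mul, two_mul]
    exact mul_le_exp (Nat.cast_nonneg _) h2 h2
  have hLpU : Lp ≤ Real.exp (cp * U) := by
    refine mul_le_exp (by positivity) (nat_succ_le_exp hδU) (mul_le_exp (by linarith) ?_ hBU)
    rw [Nat.cast_mul]
    exact mul_le_exp (Nat.cast_nonneg _) hAA (nat_succ_le_exp hδU)
  set BG := ((A * A : ℕ) : ℝ) * (Lp * B) with hBG
  have hG : Small (sumMat D E p t j) (δ + δ) BG := by
    refine (small_sum _ _ fun x _ => (hsmall t (by omega) j hj x).smul (p x) (hpd x) (hpl x)).mono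
      le_rfl (le_of_eq ?_)
    rw [sum_const, card_univ, Fintype.card_prod, Fintype.card_fin, nsmul_eq_mul]
  have hBGU : BG ≤ Real.exp (cG * U) :=
    mul_le_exp (by positivity) hAA (mul_le_exp (by linarith) hLpU hBU)
  have hγ : aeval θ D.q ^ E * valueAt Φ coef t j ≠ 0 :=
    mul_ne_zero (pow_ne_zero _ (aeval_ne_zero hθ D.hq)) hne
  obtain ⟨hdet, hdeg, hlen, hval⟩ :=
    exists_norm_poly_basis D.hν D.w D.hw D.indep hG (acts_sumMat D p (by omega) j) hγ
  have hdegN : ((sumMat D E p t j).det.natDegree : ℝ) ≤ (2 * ν * cδ + 1) * N := by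
    refine (Nat.cast_le.2 hdeg).trans ?_
    push_cast
    rw [← hν]
    linarith [mul_le_mul_of_nonneg_left hδN (show (0 : ℝ) ≤ ν by linarith)]
  refine ⟨_, hdet, hdegN, ?_, ?_⟩
  · have h1 : Real.log (len (sumMat D E p t j).det) ≤ ν * (ν + cG) * U := by
      rw [Real.log_le_iff_le_exp (zero_lt_one.trans_le (one_le_len hdet))]
      refine hlen.trans ?_
      calc (ν * BG) ^ D.ν ≤ Real.exp ((ν + cG) * U) ^ D.ν :=
            pow_le_pow_left₀ (by positivity)
              (mul_le_exp (by positivity) (cast_le_exp hU1 (by linarith)) hBGU) _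
        _ = _ := by rw [← Real.exp_nat_mul, ← hν, mul_assoc]
    have h2 := mul_le_mul_of_nonneg_left hNU (show (0 : ℝ) ≤ 2 * ν * cδ + 1 by positivity)
    linarith
  -- its value
  set P₀ := Lp * Θ ^ δ with hP₀
  have hP0 : 0 ≤ P₀ := by positivity
  have hPb : ∀ x, ‖coef x‖ ≤ P₀ := fun x => (norm_aeval_le θ _ (hpd x)).trans
    (mul_le_mul_of_nonneg_right (hpl x) (by positivity))
  set Z := P₀ * Real.exp (Cg * A * (C₀ * N) ^ 2) * (1 / 2) ^ (T * N ^ 2) with hZ
  have hder : ‖iteratedDeriv t (auxG Φ coef) (pt Φ 0 j)‖ ≤ t.factorial * Z := by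
    have h := Complex.norm_iteratedDeriv_le_of_forall_mem_sphere_norm_le t one_pos
      (differentiable_auxG Φ coef).diffContOnCl (c := pt Φ 0 j) (C := Z) fun z hz => by
        refine hs coef hP0 hPb hN hzero le_rfl z ?_
        rw [mem_sphere_iff_norm] at hz
        have := norm_le_norm_add_norm_sub' z (pt Φ 0 j)
        linarith [norm_pt_le Φ hN (show 0 < N by omega) hj]
    simpa using h
  have hval' : ‖valueAt Φ coef t j‖ ≤ η⁻¹ ^ (3 * A) * (t.factorial * Z) := by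
    rw [inv_pow, ← div_eq_inv_mul, le_div_iff₀ (by positivity), mul_comm]
    refine le_trans ?_ hder
    rw [iteratedDeriv_auxG Φ coef hmin, norm_mul, norm_pow]
    refine mul_le_mul_of_nonneg_right (pow_le_pow_left₀ hη0.le ?_ _) (norm_nonneg _)
    exact norm_th_le_shift Φ (z := Φ.ω / 2) (by
      rw [div_div, mul_comm, ← div_div, div_self Φ.hω]; simp) 0 j
  have hfac : (t.factorial : ℝ) ≤ Real.exp (((e : ℝ) * e + e) * U) := by
    refine le_trans (Nat.cast_le.2 (Nat.factorial_le_pow t)) ?_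
    push_cast
    have htE : t ≤ E := by omega
    refine (pow_le_pow_left₀ (Nat.cast_nonneg _)
      (show (t : ℝ) ≤ (e : ℝ) * N by rw [← Nat.cast_mul, ← hE]; exact_mod_cast htE) t).trans ?_
    rw [mul_pow]
    exact mul_le_exp (by positivity)
      (pow_le_exp (Nat.cast_nonneg _) ((Nat.cast_le.2 htE).trans hE')) (hNe t htE)
  have hP₀U : P₀ ≤ Real.exp ((cp + Θ * cδ) * U) :=
    mul_le_exp (by positivity) hLpU (pow_le_exp (by linarith) hδU)
  have hdecay : Real.exp (Cg * A * (C₀ * N) ^ 2) * (1 / 2 : ℝ) ^ (T * N ^ 2) ≤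
      Real.exp (-(N : ℝ) ^ 3) := by
    rw [one_div, inv_pow]
    refine (mul_le_mul_of_nonneg_left (inv_two_pow_le _) (Real.exp_pos _).le).trans ?_
    rw [← Real.exp_add, Real.exp_le_exp, hA, hT]
    push_cast
    have hk' : (1 : ℝ) ≤ k := by exact_mod_cast hk1
    have hN3 : 0 ≤ (N : ℝ) ^ 3 := by positivity
    have hN3k : (N : ℝ) ^ 3 ≤ (k : ℝ) * (N : ℝ) ^ 3 := le_mul_of_one_le_left hN3 hk'
    linarith [mul_le_mul_of_nonneg_right hm' (show 0 ≤ (k : ℝ) * (N : ℝ) ^ 3 by positivity)]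
  have hη' : η⁻¹ ^ (3 * A) ≤ Real.exp (η⁻¹ * (3 * k) * U) := pow_le_exp (inv_nonneg.2 hη0.le) (by
    rw [hA]; push_cast
    linarith [mul_le_mul_of_nonneg_left hNU (show (0 : ℝ) ≤ 3 * k by positivity)])
  have hgam : ‖valueAt Φ coef t j‖ ≤ Real.exp (cg * U) * Real.exp (-(N : ℝ) ^ 3) := by
    refine hval'.trans ?_
    rw [hZ, mul_assoc P₀, ← mul_assoc (t.factorial : ℝ), ← mul_assoc]
    exact mul_le_mul (mul_le_exp (by positivity) hη' (mul_le_exp hP0 hfac hP₀U)) hdecay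
      (by positivity) (Real.exp_pos _).le
  have hY : ν * (BG * Θ ^ (δ + δ)) + 1 ≤ Real.exp (cY * U) := by
    have hz : BG * Θ ^ (δ + δ) ≤ Real.exp ((cG + Θ * (2 * cδ)) * U) :=
      mul_le_exp (by positivity) hBGU (pow_le_exp (by linarith) h2δ)
    have h1 : (1 : ℝ) ≤ Real.exp ((cG + Θ * (2 * cδ)) * U) := Real.one_le_exp (by positivity)
    calc ν * (BG * Θ ^ (δ + δ)) + 1 ≤ (ν + 1) * Real.exp ((cG + Θ * (2 * cδ)) * U) := by
          rw [add_mul, one_mul]
          exact add_le_add (mul_le_mul_of_nonneg_left hz (by linarith)) h1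
      _ ≤ _ := mul_le_exp (Real.exp_pos _).le (cast_le_exp hU1 (by linarith)) le_rfl
  refine hval.trans ?_
  rw [norm_mul, norm_pow]
  calc ‖aeval θ D.q‖ ^ E * ‖valueAt Φ coef t j‖ * (cS * (ν * (BG * Θ ^ (δ + δ)) + 1) ^ D.ν)
      ≤ Real.exp (‖aeval θ D.q‖ * e * U) * (Real.exp (cg * U) * Real.exp (-(N : ℝ) ^ 3)) *
        (Real.exp (cS * U) * Real.exp (cY * U) ^ D.ν) := by
        gcongr
        · exact pow_le_exp (norm_nonneg _) hE'
        · exact cast_le_exp hU1 hcS0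
    _ = _ := by
        rw [← Real.exp_nat_mul]
        simp only [← Real.exp_add]
        rw [← hν]
        congr 1
        ring

end FA.Chudnovsky

end
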