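import Mathlib.Analysis.Complex.CauchyIntegral
import Mathlib.Analysis.Fourier.AddCircle
import Mathlib.Analysis.Analytic.IsolatedZeros
import Mathlib.LinearAlgebra.FiniteDimensional.Basic
import Mathlib.MeasureTheory.Integral.IntervalIntegral.Periodic

/-!
# Theta functions of degree one and two

An entire function of period `1` with `f (x + τ) = K exp (-2 π i d x) f x` is determined by the
Fourier coefficients of index `0, …, d - 1`, so `d + 1` of them are linearly dependent.
-/

set_option autoImplicit false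

noncomputable section

open Complex MeasureTheory Filter
open scoped Real Topology

namespace FA.Chudnovsky

/-- An entire function with the periodicity of a theta function of degree `d`. -/
structure IsTheta (τ K : ℂ) (d : ℕ) (f : ℂ → ℂ) : Prop where
  /-- entire -/
  diff : Differentiable ℂ f
  /-- the period `1` -/
  per : ∀ x, f (x + 1) = f x
  /-- the quasi-period `τ` -/
  quasi : ∀ x, f (x + τ) = K * Complex.exp (-(2 * π * I * d * x)) * f x

/-- The Fourier coefficients on the real axis. -/
def fourierTerm (f : ℂ → ℂ) (n : ℤ) : ℂ :=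
  ∫ x in (0 : ℝ)..1, f x * Complex.exp (-(2 * π * I * n * x))

theorem integral_shift {g : ℂ → ℂ} (hg : Differentiable ℂ g) (hper : ∀ x, g (x + 1) = g x)
    (w : ℂ) : ∫ x in (0 : ℝ)..1, g (x + w) = ∫ x in (0 : ℝ)..1, g x := by
  have hp : Function.Periodic (fun x : ℝ => g (x + (w.im : ℂ) * I)) 1 := fun x => by
    simp only
    rw [ofReal_add, ofReal_one, add_right_comm, hper]
  have hreal : ∫ x in (0 : ℝ)..1, g (x + w) = ∫ x in (0 : ℝ)..1, g (x + (w.im : ℂ) * I) := by
    have h1 : ∀ x : ℝ, (x : ℂ) + w = ((x + w.re : ℝ) : ℂ) + (w.im : ℂ) * I := fun x => by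
      conv_lhs => rw [← Complex.re_add_im w]
      push_cast
      ring
    simp only [h1]
    rw [intervalIntegral.integral_comp_add_right (fun x : ℝ => g (x + (w.im : ℂ) * I)) w.re,
      zero_add, add_comm 1 w.re, hp.intervalIntegral_add_eq w.re 0, zero_add]
  rw [hreal]
  have h := Complex.integral_boundary_rect_eq_zero_of_differentiableOn g 0 (1 + (w.im : ℂ) * I)
    hg.differentiableOn
  have hv : ∫ y : ℝ in (0 : ℝ)..w.im, g (((1 : ℝ) : ℂ) + y * I) =
      ∫ y : ℝ in (0 : ℝ)..w.im, g (((0 : ℝ) : ℂ) + y * I) :=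
    intervalIntegral.integral_congr fun y _ => by
      rw [ofReal_one, ofReal_zero, zero_add, add_comm 1 _, hper]
  simp only [zero_re, zero_im, add_re, one_re, mul_re, ofReal_re, I_re, mul_zero, ofReal_im, I_im,
    mul_one, sub_self, add_zero, add_im, one_im, mul_im, zero_add, ofReal_zero, zero_mul] at h
  rw [hv] at h
  simp only [ofReal_zero, zero_add, add_sub_cancel_right] at h
  exact (sub_eq_zero.1 h).symm

theorem exp_neg_int_mul (n : ℤ) : Complex.exp (-(2 * π * I * n)) = 1 := by
  rw [show -(2 * π * I * n) = ((-n : ℤ) : ℂ) * (2 * π * I) by push_cast; ring]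
  exact Complex.exp_int_mul_two_pi_mul_I _

variable {τ K : ℂ} {d : ℕ} {f : ℂ → ℂ}

theorem IsTheta.fourierTerm_add (hf : IsTheta τ K d f) (n : ℤ) :
    fourierTerm f n = K * Complex.exp (-(2 * π * I * n * τ)) * fourierTerm f (n + d) := by
  have hd := hf.diff
  have h := integral_shift (g := fun x => f x * Complex.exp (-(2 * π * I * n * x)))
    (by fun_prop) (fun x => by
      rw [hf.per, mul_add, mul_one, neg_add, Complex.exp_add, exp_neg_int_mul, mul_one]) τ
  rw [fourierTerm, ← h, fourierTerm, ← intervalIntegral.integral_const_mul]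
  refine intervalIntegral.integral_congr fun x _ => ?_
  simp only [hf.quasi]
  rw [mul_add (2 * π * I * n), neg_add, Complex.exp_add, show
    -(2 * π * I * ((n + d : ℤ) : ℂ) * x) =
      -(2 * π * I * d * x) + -(2 * π * I * n * x) by push_cast; ring, Complex.exp_add]
  ring

theorem IsTheta.fourierTerm_eq_zero (hf : IsTheta τ K d f) (hK : K ≠ 0) (hd : 0 < d)
    (h : ∀ r : Fin d, fourierTerm f (r : ℕ) = 0) (n : ℤ) : fourierTerm f n = 0 := by
  have hr : ∀ q : ℤ, ∀ r : Fin d, fourierTerm f ((r : ℕ) + q * d) = 0 := fun q r => by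
    induction q using Int.induction_on with
    | zero => simpa using h r
    | succ k ih =>
      have e := hf.fourierTerm_add (((r : ℕ) : ℤ) + k * d)
      rw [ih, eq_comm, mul_eq_zero] at e
      rw [show ((r : ℕ) : ℤ) + ((k : ℤ) + 1) * d = (r : ℕ) + k * d + d by ring]
      exact e.resolve_left (mul_ne_zero hK (Complex.exp_ne_zero _))
    | pred k ih =>
      rw [hf.fourierTerm_add, show ((r : ℕ) : ℤ) + (-(k : ℤ) - 1) * d + d =
        (r : ℕ) + -(k : ℤ) * d by ring, ih, mul_zero]
  have h1 := Int.emod_lt_of_pos n (by omega : (0 : ℤ) < d)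
  have h2 := Int.emod_nonneg n (by omega : (d : ℤ) ≠ 0)
  have h3 := hr (n / d) ⟨(n % d).toNat, by omega⟩
  rwa [show (((n % d).toNat : ℕ) : ℤ) + n / d * d = n by
    rw [Int.toNat_of_nonneg h2]; exact Int.emod_add_ediv_mul n d] at h3

theorem IsTheta.eq_zero (hf : IsTheta τ K d f) (hK : K ≠ 0) (hd : 0 < d)
    (h : ∀ r : Fin d, fourierTerm f (r : ℕ) = 0) : f = 0 := by
  have hp : Function.Periodic (fun x : ℝ => f x) 1 := fun x => by
    simp only [ofReal_add, ofReal_one, hf.per]
  have hc : Continuous fun x : ℝ => f x := hf.diff.continuous.comp Complex.continuous_ofReal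
  let F : C(UnitAddCircle, ℂ) :=
    ⟨hp.lift, continuous_coinduced_dom.2 hc⟩
  have hF : fourierCoeff F = 0 := by
    funext n
    rw [fourierCoeff_eq_intervalIntegral _ n 0, zero_add, Pi.zero_apply]
    simp only [div_one, one_smul]
    refine Eq.trans (intervalIntegral.integral_congr fun x _ => ?_)
      (hf.fourierTerm_eq_zero hK hd h n)
    change (fourier (-n) (x : UnitAddCircle)) • F (x : UnitAddCircle) = _
    rw [fourier_coe_apply, smul_eq_mul, mul_comm]
    congr 2
    push_cast
    ring
  have hreal : ∀ x : ℝ, f x = 0 := fun x => by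
    have h1 := has_pointwise_sum_fourier_series_of_summable (f := F)
      (by rw [hF]; exact summable_zero) (x : UnitAddCircle)
    simp only [hF, Pi.zero_apply, zero_smul] at h1
    exact h1.unique hasSum_zero
  funext z
  have hfr : ∃ᶠ w in 𝓝[≠] (0 : ℂ), f w = (0 : ℂ → ℂ) w := by
    have ht : Tendsto (fun x : ℝ => (x : ℂ)) (𝓝[≠] (0 : ℝ)) (𝓝[≠] (0 : ℂ)) := by
      refine tendsto_nhdsWithin_of_tendsto_nhds_of_eventually_within _
        ((Complex.continuous_ofReal.tendsto' 0 0 ofReal_zero).mono_left nhdsWithin_le_nhds) ?_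
      filter_upwards [self_mem_nhdsWithin] with x hx
      simpa using hx
    exact ht.frequently (p := fun w => f w = 0) (Filter.Eventually.of_forall hreal).frequently
  exact congrFun ((hf.diff.differentiableOn.analyticOnNhd isOpen_univ).eq_of_frequently_eq
    (differentiableOn_const (0 : ℂ) |>.analyticOnNhd isOpen_univ) hfr) z

theorem isTheta_sum {ι : Type*} (s : Finset ι) (c : ι → ℂ) (g : ι → ℂ → ℂ)
    (hg : ∀ i ∈ s, IsTheta τ K d (g i)) : IsTheta τ K d (fun x => ∑ i ∈ s, c i * g i x) where
  diff := Differentiable.fun_sum fun i hi => (hg i hi).diff.const_mul (c i)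
  per x := Finset.sum_congr rfl fun i hi => by rw [(hg i hi).per]
  quasi x := by
    rw [Finset.mul_sum]
    exact Finset.sum_congr rfl fun i hi => by rw [(hg i hi).quasi]; ring

/-- **`d + 1` theta functions of degree `d` are linearly dependent.** -/
theorem exists_dependence (hK : K ≠ 0) (hd : 0 < d) (g : Fin (d + 1) → ℂ → ℂ)
    (hg : ∀ i, IsTheta τ K d (g i)) :
    ∃ c : Fin (d + 1) → ℂ, c ≠ 0 ∧ ∀ x, ∑ i, c i * g i x = 0 := by
  let φ : (Fin (d + 1) → ℂ) →ₗ[ℂ] (Fin d → ℂ) :=
    Fintype.linearCombination ℂ fun i (r : Fin d) => fourierTerm (g i) (r : ℕ)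
  obtain ⟨c, hc, hc0⟩ := Submodule.exists_mem_ne_zero_of_ne_bot
    (LinearMap.ker_ne_bot_of_finrank_lt (f := φ) (by simp))
  refine ⟨c, hc0, fun x => congrFun ((isTheta_sum _ c g fun i _ => hg i).eq_zero hK hd
    fun r => ?_) x⟩
  have h0 := congrFun (LinearMap.mem_ker.1 hc) r
  simp only [φ, Fintype.linearCombination_apply, Finset.sum_apply, Pi.smul_apply, smul_eq_mul,
    Pi.zero_apply] at h0
  simp only [fourierTerm, Finset.sum_mul] at h0 ⊢
  rw [intervalIntegral.integral_finsetSum fun i _ => ?_]
  · rw [← h0]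
    refine Finset.sum_congr rfl fun i _ => ?_
    rw [← intervalIntegral.integral_const_mul]
    simp only [mul_assoc]
  · have := (hg i).diff.continuous
    exact Continuous.intervalIntegrable (by fun_prop) _ _

end FA.Chudnovsky

end
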