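import Fermat.Agent.Chudnovsky.ThetaSpace
import Fermat.Agent.Transcendence.EllipticExp

/-!
# The zeta function of a lattice

For a basis `ω, τ ω` of the lattice the theta function `th` vanishes exactly on the lattice, to
the first order, and its logarithmic derivative `zt` has period `ω`, the shift `-2 π i / ω` by
`τ ω` and the derivative `-℘ - α` for a constant `α`.
-/

set_option autoImplicit false

noncomputable section

open Complex Filter
open scoped Topology Real PeriodPair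

namespace FA.Chudnovsky

open FA.SchneiderLang (jacobiTheta₂_eq_zero_of_lattice exists_jacobiTheta₂_ne_zero
  exists_bound_of_quasiPeriodic infinite_image_weierstrassP exists_tau)

/-- A basis `ω, τ ω` of the lattice with `τ` in the upper half plane. -/
structure Frame (L : PeriodPair) where
  /-- the period -/
  ω : ℂ
  /-- the ratio -/
  τ : ℂ
  /-- the period is not zero -/
  hω : ω ≠ 0
  /-- the ratio is in the upper half plane -/
  hτ : 0 < τ.im
  /-- they span the lattice -/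
  mem : ∀ x, x ∈ L.lattice ↔ ∃ m n : ℤ, ((m : ℂ) + n * τ) * ω = x

variable {L : PeriodPair}

theorem exists_frame (L : PeriodPair) : ∃ Φ : Frame L, Φ.ω = L.ω₁ := by
  obtain ⟨τ, hτ, hmem⟩ := exists_tau L
  exact ⟨⟨L.ω₁, τ, by simpa using L.indep.ne_zero 0, hτ, hmem⟩, rfl⟩

variable (Φ : Frame L)

theorem Frame.ω_mem : Φ.ω ∈ L.lattice := (Φ.mem _).2 ⟨1, 0, by simp⟩

theorem Frame.τω_mem : Φ.τ * Φ.ω ∈ L.lattice := (Φ.mem _).2 ⟨0, 1, by simp⟩

theorem Frame.half_notMem : Φ.ω / 2 ∉ L.lattice := fun h => by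
  obtain ⟨m, n, hmn⟩ := (Φ.mem _).1 h
  have h1 : (m : ℂ) + n * Φ.τ = 1 / 2 := mul_right_cancel₀ Φ.hω (hmn.trans (by ring))
  have hn : (n : ℝ) = 0 := by
    have := congrArg Complex.im h1
    simpa [Φ.hτ.ne'] using this
  have hm : (m : ℝ) = 1 / 2 := by
    have := congrArg Complex.re h1
    simpa [hn] using this
  have : (2 * m : ℤ) = 1 := by
    have h2 : (2 : ℝ) * m = 1 := by linarith
    exact_mod_cast h2
  omega

theorem not_eventually_const {z : ℂ} (hz : z ∉ L.lattice) (k : ℂ) :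
    ¬ ∀ᶠ y in 𝓝 z, ℘[L] y = k := fun h => by
  have hU := Mazur.Weier.preconnected_compl (Mazur.Weier.countable_lattice L)
  have heq := L.analyticOnNhd_weierstrassP.eqOn_of_preconnected_of_eventuallyEq
    (g := fun _ => k) analyticOnNhd_const hU hz h
  refine infinite_image_weierstrassP L (Mazur.Weier.countable_lattice L) le_rfl
    ((Set.finite_singleton k).subset ?_)
  rintro _ ⟨w, hw, rfl⟩
  exact heq hw

theorem eq_of_eq_off_lattice {u v : ℂ → ℂ} (hu : Continuous u) (hv : Continuous v)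
    (h : ∀ z ∉ L.lattice, u z = v z) : ∀ z, u z = v z :=
  fun z => congrFun (Continuous.ext_on
    ((Mazur.Weier.countable_lattice L).dense_compl ℂ) hu hv fun w hw => h w hw) z

theorem eq_shift {u v : ℂ → ℂ} (hu : Continuous u) (hv : Continuous v) (l : ℂ)
    (h : ∀ z ∉ L.lattice, u (z + l) = v z) (z : ℂ) : u (z + l) = v z :=
  eq_of_eq_off_lattice (L := L) (u := fun z => u (z + l)) (hu.comp (by fun_prop)) hv h z

/-- The theta function. -/
def th (z : ℂ) : ℂ := jacobiTheta₂ (z / Φ.ω + (1 + Φ.τ) / 2) Φ.τ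

/-- The shift of the zeta function. -/
def shiftC : ℂ := -(2 * π * I) / Φ.ω

/-- The factor of the quasi-periodicity. -/
def thFac : ℂ := Complex.exp (-(2 * π * I * Φ.τ) - π * I)

/-- The multiplier of the quasi-periodicity. -/
def thMul (z : ℂ) : ℂ := thFac Φ * Complex.exp (shiftC Φ * z)

theorem differentiable_th : Differentiable ℂ (th Φ) := fun z =>
  DifferentiableAt.comp (f := fun z : ℂ => z / Φ.ω + (1 + Φ.τ) / 2)
    (g := fun x => jacobiTheta₂ x Φ.τ) z (differentiableAt_jacobiTheta₂_fst _ Φ.hτ) (by fun_prop)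

theorem differentiable_deriv {f : ℂ → ℂ} (hf : Differentiable ℂ f) :
    Differentiable ℂ (deriv f) := fun z =>
  ((hf.differentiableOn.analyticOnNhd isOpen_univ).deriv z (Set.mem_univ z)).differentiableAt

theorem th_add_period (z : ℂ) : th Φ (z + Φ.ω) = th Φ z := by
  rw [th, th, ← jacobiTheta₂_add_left (z / Φ.ω + (1 + Φ.τ) / 2) Φ.τ, add_div, div_self Φ.hω]
  congr 1; ring

theorem th_add_quasi (z : ℂ) : th Φ (z + Φ.τ * Φ.ω) = thMul Φ z * th Φ z := by
  rw [th, add_div, mul_div_cancel_right₀ _ Φ.hω, show z / Φ.ω + Φ.τ + (1 + Φ.τ) / 2 =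
    z / Φ.ω + (1 + Φ.τ) / 2 + Φ.τ by ring, jacobiTheta₂_add_left', th, thMul, thFac,
    ← Complex.exp_add, shiftC]
  congr 2
  ring

theorem th_lattice {l : ℂ} (hl : l ∈ L.lattice) : th Φ l = 0 := by
  obtain ⟨m, n, rfl⟩ := (Φ.mem l).1 hl
  rw [th, mul_div_cancel_right₀ _ Φ.hω,
    show (m : ℂ) + n * Φ.τ + (1 + Φ.τ) / 2 = (1 + Φ.τ) / 2 + m + n * Φ.τ by ring]
  exact jacobiTheta₂_eq_zero_of_lattice Φ.τ m n

theorem exists_th_ne_zero : ∃ z, z ∉ L.lattice ∧ th Φ z ≠ 0 := by
  by_contra! h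
  obtain ⟨x, hx⟩ := exists_jacobiTheta₂_ne_zero Φ.hτ
  have h0 := eq_of_eq_off_lattice (L := L) (differentiable_th Φ).continuous continuous_const h
    ((x - (1 + Φ.τ) / 2) * Φ.ω)
  rw [th, mul_div_cancel_right₀ _ Φ.hω, sub_add_cancel] at h0
  exact hx h0

theorem hasDerivAt_thMul (z : ℂ) : HasDerivAt (thMul Φ) (shiftC Φ * thMul Φ z) z := by
  have h := ((((hasDerivAt_id z).const_mul (shiftC Φ)).cexp).const_mul (thFac Φ))
  simp only [id, mul_one] at h
  exact h.congr_deriv (by rw [thMul]; ring)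

theorem deriv_th_add_period (z : ℂ) : deriv (th Φ) (z + Φ.ω) = deriv (th Φ) z := by
  rw [← deriv_comp_add_const, show (fun y => th Φ (y + Φ.ω)) = th Φ from funext (th_add_period Φ)]

theorem deriv_deriv_th_add_period (z : ℂ) :
    deriv (deriv (th Φ)) (z + Φ.ω) = deriv (deriv (th Φ)) z := by
  rw [← deriv_comp_add_const,
    show (fun y => deriv (th Φ) (y + Φ.ω)) = deriv (th Φ) from funext (deriv_th_add_period Φ)]

theorem deriv_th_add_quasi (z : ℂ) : deriv (th Φ) (z + Φ.τ * Φ.ω) =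
    thMul Φ z * (shiftC Φ * th Φ z + deriv (th Φ) z) := by
  rw [← deriv_comp_add_const,
    show (fun y => th Φ (y + Φ.τ * Φ.ω)) = fun y => thMul Φ y * th Φ y from
      funext (th_add_quasi Φ)]
  exact ((hasDerivAt_thMul Φ z).mul (differentiable_th Φ z).hasDerivAt).deriv.trans (by ring)

theorem deriv_deriv_th_add_quasi (z : ℂ) : deriv (deriv (th Φ)) (z + Φ.τ * Φ.ω) = thMul Φ z *
    (shiftC Φ ^ 2 * th Φ z + 2 * shiftC Φ * deriv (th Φ) z + deriv (deriv (th Φ)) z) := by
  rw [← deriv_comp_add_const,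
    show (fun y => deriv (th Φ) (y + Φ.τ * Φ.ω)) =
      fun y => thMul Φ y * (shiftC Φ * th Φ y + deriv (th Φ) y) from
      funext (deriv_th_add_quasi Φ)]
  exact ((hasDerivAt_thMul Φ z).mul (((differentiable_th Φ z).hasDerivAt.const_mul (shiftC Φ)).add
    (differentiable_deriv (differentiable_th Φ) z).hasDerivAt)).deriv.trans
      (by simp only [Pi.add_apply]; ring)

theorem isTheta_scale {d : ℕ} {f : ℂ → ℂ} (hf : Differentiable ℂ f)
    (h1 : ∀ z, f (z + Φ.ω) = f z) (h2 : ∀ z, f (z + Φ.τ * Φ.ω) = thMul Φ z ^ d * f z) :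
    IsTheta Φ.τ (thFac Φ ^ d) d (fun x => f (Φ.ω * x)) where
  diff := hf.comp (differentiable_id.const_mul Φ.ω)
  per x := by
    show f (Φ.ω * (x + 1)) = f (Φ.ω * x)
    rw [mul_add, mul_one, h1]
  quasi x := by
    show f (Φ.ω * (x + Φ.τ)) = _
    rw [mul_add, mul_comm Φ.ω Φ.τ, h2, thMul, mul_pow, ← Complex.exp_nat_mul, shiftC]
    congr 3
    field_simp [Φ.hω]

theorem eq_zero_of_scale {f : ℂ → ℂ} (h : ∀ x, f (Φ.ω * x) = 0) (z : ℂ) : f z = 0 := by
  simpa [mul_div_cancel₀ _ Φ.hω] using h (z / Φ.ω)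

theorem exists_dependence_scale {d : ℕ} (hd : 0 < d) (g : Fin (d + 1) → ℂ → ℂ)
    (hg : ∀ i, Differentiable ℂ (g i)) (h1 : ∀ i z, g i (z + Φ.ω) = g i z)
    (h2 : ∀ i z, g i (z + Φ.τ * Φ.ω) = thMul Φ z ^ d * g i z) :
    ∃ c : Fin (d + 1) → ℂ, c ≠ 0 ∧ ∀ z, ∑ i, c i * g i z = 0 := by
  obtain ⟨c, hc, h⟩ := exists_dependence (pow_ne_zero d (Complex.exp_ne_zero _)) hd _
    fun i => isTheta_scale Φ (hg i) (h1 i) (h2 i)
  exact ⟨c, hc, fun z => eq_zero_of_scale Φ (f := fun z => ∑ i, c i * g i z) h z⟩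

/-- `th ^ 2 ℘`. -/
def thSq (z : ℂ) : ℂ :=
  open scoped Classical in if z ∈ L.lattice then deriv (th Φ) z ^ 2 else th Φ z ^ 2 * ℘[L] z

theorem thSq_off {z : ℂ} (hz : z ∉ L.lattice) : thSq Φ z = th Φ z ^ 2 * ℘[L] z := if_neg hz

theorem differentiable_thSq : Differentiable ℂ (thSq Φ) := fun z => by
  by_cases hz : z ∈ L.lattice
  · have hd : AnalyticAt ℂ (dslope (th Φ) z) z :=
      ((Complex.differentiableOn_dslope univ_mem).2
        (differentiable_th Φ).differentiableOn).analyticAt univ_mem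
    have hE : AnalyticAt ℂ ℘[L - z] z := L.analyticAt_weierstrassPExcept z
    have hR : DifferentiableAt ℂ (fun y => dslope (th Φ) z y ^ 2 *
        ((y - z) ^ 2 * ℘[L - z] y + 1 - (y - z) ^ 2 * (z ^ 2)⁻¹)) z := by fun_prop
    refine hR.congr_of_eventuallyEq ?_
    filter_upwards [L.compl_lattice_sdiff_singleton_mem_nhds z] with y hy
    rw [← div_eq_mul_inv, ← L.ite_eq_one_sub_sq_mul_weierstrassP z hz y]
    by_cases hyz : y = z
    · subst hyz
      rw [if_pos rfl, mul_one, dslope_same, thSq, if_pos hz]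
    · rw [if_neg hyz, thSq_off Φ fun h => hy ⟨h, hyz⟩, dslope_of_ne _ hyz, slope_def_field,
        th_lattice Φ hz, sub_zero, div_pow, ← mul_assoc,
        div_mul_cancel₀ _ (pow_ne_zero _ (sub_ne_zero.2 hyz))]
  · refine DifferentiableAt.congr_of_eventuallyEq ?_
      ((Mazur.Weier.eventually_notMem L hz).mono fun y => thSq_off Φ)
    exact ((differentiable_th Φ z).pow 2).mul (L.analyticOnNhd_weierstrassP z hz).differentiableAt

theorem thSq_add_period (z : ℂ) : thSq Φ (z + Φ.ω) = thSq Φ z := by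
  refine eq_shift (L := L) (differentiable_thSq Φ).continuous
    (differentiable_thSq Φ).continuous Φ.ω (fun z hz => ?_) z
  have hz' : z + Φ.ω ∉ L.lattice := fun h => hz (by simpa using sub_mem h Φ.ω_mem)
  rw [thSq_off Φ hz, thSq_off Φ hz', th_add_period, L.weierstrassP_add_coe z ⟨Φ.ω, Φ.ω_mem⟩]

theorem continuous_thMul : Continuous (thMul Φ) := by unfold thMul; fun_prop

theorem thSq_add_quasi (z : ℂ) : thSq Φ (z + Φ.τ * Φ.ω) = thMul Φ z ^ 2 * thSq Φ z := by
  refine eq_shift (L := L) (differentiable_thSq Φ).continuous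
    (v := fun z => thMul Φ z ^ 2 * thSq Φ z)
    (((continuous_thMul Φ).pow 2).mul (differentiable_thSq Φ).continuous) _ (fun z hz => ?_) z
  have hz' : z + Φ.τ * Φ.ω ∉ L.lattice := fun h => hz (by simpa using sub_mem h Φ.τω_mem)
  rw [thSq_off Φ hz, thSq_off Φ hz', th_add_quasi,
    L.weierstrassP_add_coe z ⟨_, Φ.τω_mem⟩]
  ring

theorem deriv_th_lattice (h0 : deriv (th Φ) 0 = 0) {l : ℂ} (hl : l ∈ L.lattice) :
    deriv (th Φ) l = 0 := by
  obtain ⟨m, n, rfl⟩ := (Φ.mem l).1 hl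
  have hm : ∀ z, deriv (th Φ) (z + m * Φ.ω) = deriv (th Φ) z := fun z =>
    Function.Periodic.int_mul (deriv_th_add_period Φ) m z
  have hn : deriv (th Φ) (n * (Φ.τ * Φ.ω)) = 0 := by
    clear hl
    induction n using Int.induction_on with
    | zero => simpa using h0
    | succ k ih =>
      rw [Int.cast_add, Int.cast_one, add_mul, one_mul, deriv_th_add_quasi, ih,
        th_lattice Φ ((Φ.mem _).2 ⟨0, k, by push_cast; ring⟩)]
      ring
    | pred k ih =>
      have h := deriv_th_add_quasi Φ (((-(k : ℤ) - 1 : ℤ) : ℂ) * (Φ.τ * Φ.ω))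
      rw [show ((-(k : ℤ) - 1 : ℤ) : ℂ) * (Φ.τ * Φ.ω) + Φ.τ * Φ.ω =
          ((-(k : ℤ) : ℤ) : ℂ) * (Φ.τ * Φ.ω) by push_cast; ring, ih,
        th_lattice Φ ((Φ.mem _).2 ⟨0, -(k : ℤ) - 1, by push_cast; ring⟩), mul_zero, zero_add,
        eq_comm, mul_eq_zero] at h
      exact h.resolve_left (mul_ne_zero (Complex.exp_ne_zero _) (Complex.exp_ne_zero _))
  rw [show ((m : ℂ) + n * Φ.τ) * Φ.ω = n * (Φ.τ * Φ.ω) + m * Φ.ω by ring, hm, hn]

theorem deriv_th_zero_ne : deriv (th Φ) 0 ≠ 0 := fun h0 => by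
  classical
  -- otherwise `th ℘` would be a theta function of degree one
  let w : ℂ → ℂ := fun z =>
    if z ∈ L.lattice then dslope (dslope (th Φ) z) z z else th Φ z * ℘[L] z
  have hoff : ∀ z ∉ L.lattice, w z = th Φ z * ℘[L] z := fun z hz => if_neg hz
  have hw : Differentiable ℂ w := fun z => by
    by_cases hz : z ∈ L.lattice
    · have hd : AnalyticAt ℂ (dslope (dslope (th Φ) z) z) z :=
        ((Complex.differentiableOn_dslope univ_mem).2 ((Complex.differentiableOn_dslope univ_mem).2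
          (differentiable_th Φ).differentiableOn)).analyticAt univ_mem
      have hE : AnalyticAt ℂ ℘[L - z] z := L.analyticAt_weierstrassPExcept z
      have hR : DifferentiableAt ℂ (fun y => dslope (dslope (th Φ) z) z y *
          ((y - z) ^ 2 * ℘[L - z] y + 1 - (y - z) ^ 2 * (z ^ 2)⁻¹)) z := by fun_prop
      refine hR.congr_of_eventuallyEq ?_
      filter_upwards [L.compl_lattice_sdiff_singleton_mem_nhds z] with y hy
      rw [← div_eq_mul_inv, ← L.ite_eq_one_sub_sq_mul_weierstrassP z hz y]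
      by_cases hyz : y = z
      · subst hyz
        rw [if_pos rfl, mul_one]
        exact if_pos hz
      · rw [if_neg hyz, hoff y fun h => hy ⟨h, hyz⟩, dslope_of_ne _ hyz, slope_def_field,
          dslope_same, deriv_th_lattice Φ h0 hz, dslope_of_ne _ hyz, slope_def_field,
          th_lattice Φ hz]
        have := sub_ne_zero.2 hyz
        field_simp
        ring
    · refine DifferentiableAt.congr_of_eventuallyEq ?_
        ((Mazur.Weier.eventually_notMem L hz).mono hoff)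
      exact (differentiable_th Φ z).mul (L.analyticOnNhd_weierstrassP z hz).differentiableAt
  obtain ⟨c, hc, h⟩ := exists_dependence_scale Φ one_pos ![th Φ, w]
    (Fin.forall_fin_two.2 ⟨differentiable_th Φ, hw⟩)
    (Fin.forall_fin_two.2 ⟨th_add_period Φ, fun z =>
      eq_shift (L := L) hw.continuous hw.continuous Φ.ω (fun z hz => by
        have hz' : z + Φ.ω ∉ L.lattice := fun h => hz (by simpa using sub_mem h Φ.ω_mem)
        rw [hoff z hz, hoff _ hz', th_add_period,
          L.weierstrassP_add_coe z ⟨Φ.ω, Φ.ω_mem⟩]) z⟩)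
    (Fin.forall_fin_two.2 ⟨fun z => by simpa using th_add_quasi Φ z, fun z => by
      simp only [pow_one, Matrix.cons_val_one, Matrix.cons_val_fin_one]
      refine eq_shift (L := L) hw.continuous (v := fun z => thMul Φ z * w z)
        ((continuous_thMul Φ).mul hw.continuous) _ (fun z hz => ?_) z
      have hz' : z + Φ.τ * Φ.ω ∉ L.lattice := fun h => hz (by simpa using sub_mem h Φ.τω_mem)
      rw [hoff z hz, hoff _ hz', th_add_quasi,
        L.weierstrassP_add_coe z ⟨_, Φ.τω_mem⟩]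
      ring⟩)
  replace h : ∀ x, c 0 * th Φ x + c 1 * w x = 0 := fun x => by
    simpa [Fin.sum_univ_succ] using h x
  obtain ⟨z, hz, hne⟩ := exists_th_ne_zero Φ
  have hc1 : c 1 ≠ 0 := fun e => hc (funext (Fin.forall_fin_two.2 ⟨by
    simpa [e, hne] using h z, e⟩))
  refine not_eventually_const (L := L) hz (-c 0 / c 1) ?_
  filter_upwards [Mazur.Weier.eventually_notMem L hz,
    (differentiable_th Φ).continuous.continuousAt.eventually_ne hne] with y hy hy0
  have e := h y
  rw [hoff y hy] at e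
  rw [eq_div_iff hc1]
  refine mul_left_cancel₀ hy0 ?_
  linear_combination e

/-- `th' ^ 2 - th th''`. -/
def thLog (z : ℂ) : ℂ := deriv (th Φ) z ^ 2 - th Φ z * deriv (deriv (th Φ)) z

theorem exists_thLog_eq : ∃ α : ℂ, ∀ z, thLog Φ z = α * th Φ z ^ 2 + thSq Φ z := by
  have hd := differentiable_th Φ
  have hd1 := differentiable_deriv hd
  obtain ⟨c, hc, h⟩ := exists_dependence_scale Φ two_pos
    ![fun z => th Φ z ^ 2, thSq Φ, thLog Φ]
    (fun i => by
      fin_cases i
      · exact hd.pow 2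
      · exact differentiable_thSq Φ
      · exact (hd1.pow 2).sub (hd.mul (differentiable_deriv hd1)))
    (fun i z => by
      fin_cases i
      · simp [th_add_period]
      · simp [thSq_add_period]
      · simp [thLog, th_add_period, deriv_th_add_period, deriv_deriv_th_add_period])
    (fun i z => by
      fin_cases i
      · simp [th_add_quasi, mul_pow]
      · simp [thSq_add_quasi]
      · simp [thLog, th_add_quasi, deriv_th_add_quasi, deriv_deriv_th_add_quasi]
        ring)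
  replace h : ∀ x, c 0 * th Φ x ^ 2 + c 1 * thSq Φ x + c 2 * thLog Φ x = 0 := fun x => by
    simpa [Fin.sum_univ_succ, add_assoc] using h x
  have h12 : c 1 = -c 2 := by
    have e := h 0
    rw [th_lattice Φ (zero_mem _), thSq, if_pos (zero_mem _), thLog,
      th_lattice Φ (zero_mem _)] at e
    refine eq_neg_of_add_eq_zero_left (mul_right_cancel₀ (pow_ne_zero 2 (deriv_th_zero_ne Φ)) ?_)
    linear_combination e
  have hc2 : c 2 ≠ 0 := fun e => hc (by
    obtain ⟨z, -, hne⟩ := exists_th_ne_zero Φ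
    have h0 : c 0 = 0 := by simpa [h12, e, hne] using h z
    funext i
    fin_cases i <;> simp [h0, h12, e])
  refine ⟨-c 0 / c 2, fun z => ?_⟩
  have e := h z
  rw [h12] at e
  field_simp
  linear_combination e

/-- The constant in the derivative of the zeta function. -/
def alpha : ℂ := (exists_thLog_eq Φ).choose

theorem thLog_eq (z : ℂ) : thLog Φ z = alpha Φ * th Φ z ^ 2 + thSq Φ z :=
  (exists_thLog_eq Φ).choose_spec z

theorem th_ne_zero {z₀ : ℂ} (hz : z₀ ∉ L.lattice) : th Φ z₀ ≠ 0 := fun h0 => by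
  have hd := differentiable_th Φ
  have han : AnalyticAt ℂ (th Φ) z₀ := hd.analyticAt z₀
  have h1 : deriv (th Φ) z₀ = 0 := by
    have e := thLog_eq Φ z₀
    rw [thLog, thSq_off Φ hz, h0] at e
    exact pow_eq_zero_iff two_ne_zero |>.1 (by linear_combination e)
  have hfin : analyticOrderAt (th Φ) z₀ ≠ ⊤ := fun htop => by
    obtain ⟨x, -, hx⟩ := exists_th_ne_zero Φ
    exact hx ((hd.differentiableOn.analyticOnNhd
      isOpen_univ).eqOn_zero_of_preconnected_of_eventuallyEq_zero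
      isPreconnected_univ (Set.mem_univ z₀) (analyticOrderAt_eq_top.1 htop) (Set.mem_univ x))
  obtain ⟨m, hm⟩ := ENat.ne_top_iff_exists.1 hfin
  obtain ⟨g, hg, hg0, heq⟩ := han.analyticOrderAt_eq_natCast.1 hm.symm
  obtain ⟨p, rfl⟩ : ∃ p, m = p + 1 := ⟨m - 1, by
    have : 1 ≤ analyticOrderAt (th Φ) z₀ := by
      rw [← Nat.cast_one, natCast_le_analyticOrderAt_iff_iteratedDeriv_eq_zero han]
      intro i hi
      obtain rfl : i = 0 := by omega
      simpa using h0
    rw [← hm] at this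
    have : 1 ≤ m := by exact_mod_cast this
    omega⟩
  set h : ℂ → ℂ := fun z => ((p : ℂ) + 1) * g z + (z - z₀) * deriv g z with hh
  have hha : AnalyticAt ℂ h z₀ := by
    have := hg.deriv
    fun_prop
  have e1 : deriv (th Φ) =ᶠ[𝓝 z₀] fun z => (z - z₀) ^ p * h z := by
    filter_upwards [heq.eventually_nhds, hg.eventually_analyticAt] with z hz hgz
    have hd1 := (((hasDerivAt_id z).sub_const z₀).pow (p + 1)).mul
      hgz.differentiableAt.hasDerivAt
    rw [(Filter.EventuallyEq.hasDerivAt_iff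
      (show th Φ =ᶠ[𝓝 z] fun y => (y - z₀) ^ (p + 1) * g y from hz.mono fun y hy => by
        simpa using hy)).2 hd1 |>.deriv]
    simp only [hh, id, Nat.add_sub_cancel, Pi.pow_apply]
    push_cast
    ring
  have e2 : ∀ᶠ z in 𝓝 z₀, (z - z₀) * deriv (deriv (th Φ)) z =
      (z - z₀) ^ p * ((p : ℂ) * h z + (z - z₀) * deriv h z) := by
    filter_upwards [e1.eventually_nhds, hha.eventually_analyticAt] with z hz hhz
    have hd2 := (((hasDerivAt_id z).sub_const z₀).pow p).mul hhz.differentiableAt.hasDerivAt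
    rw [((Filter.EventuallyEq.hasDerivAt_iff hz).2 hd2).deriv]
    rcases Nat.eq_zero_or_pos p with rfl | hp
    · simp
    · obtain ⟨q, rfl⟩ : ∃ q, p = q + 1 := ⟨p - 1, by omega⟩
      simp only [id, Nat.add_sub_cancel, Pi.pow_apply]
      push_cast
      ring
  have e3 : ∀ᶠ z in 𝓝[≠] z₀, h z ^ 2 - g z * ((p : ℂ) * h z + (z - z₀) * deriv h z) =
      (z - z₀) ^ 2 * (g z ^ 2 * (alpha Φ + ℘[L] z)) := by
    filter_upwards [self_mem_nhdsWithin, e1.filter_mono nhdsWithin_le_nhds,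
      e2.filter_mono nhdsWithin_le_nhds, heq.filter_mono nhdsWithin_le_nhds,
      (Mazur.Weier.eventually_notMem L hz).filter_mono nhdsWithin_le_nhds] with
      z hne h1z h2z h3z h4z
    have e := thLog_eq Φ z
    rw [thSq_off Φ h4z, thLog, h1z, h3z, smul_eq_mul] at e
    refine mul_left_cancel₀ (pow_ne_zero (2 * p + 1) (sub_ne_zero.2 hne)) ?_
    linear_combination (z - z₀) * e + (z - z₀) ^ (p + 1) * g z * h2z
  have hP : ContinuousAt ℘[L] z₀ := (L.analyticOnNhd_weierstrassP z₀ hz).continuousAt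
  have hc1 : ContinuousAt (fun z =>
      h z ^ 2 - g z * ((p : ℂ) * h z + (z - z₀) * deriv h z)) z₀ := by
    have := hha.continuousAt; have := hg.continuousAt; have := hha.deriv.continuousAt
    fun_prop
  have hc2 : ContinuousAt (fun z => (z - z₀) ^ 2 * (g z ^ 2 * (alpha Φ + ℘[L] z))) z₀ := by
    have := hg.continuousAt
    fun_prop
  have hlim := tendsto_nhds_unique_of_eventuallyEq hc1.continuousWithinAt.tendsto
    hc2.continuousWithinAt.tendsto e3
  simp only [hh, sub_self, zero_mul, add_zero, ne_eq, OfNat.ofNat_ne_zero, not_false_eq_true,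
    zero_pow] at hlim
  have hfin2 : ((p : ℂ) + 1) * g z₀ ^ 2 = 0 := by linear_combination hlim
  exact mul_ne_zero (Nat.cast_add_one_ne_zero p) (pow_ne_zero 2 hg0) hfin2

/-- **The zeta function.** -/
def zt (z : ℂ) : ℂ := deriv (th Φ) z / th Φ z

theorem hasDerivAt_zt {z : ℂ} (hz : z ∉ L.lattice) :
    HasDerivAt (zt Φ) (-℘[L] z - alpha Φ) z := by
  have h0 := th_ne_zero Φ hz
  have hd := differentiable_th Φ
  refine ((differentiable_deriv hd z).hasDerivAt.div (hd z).hasDerivAt h0).congr_deriv ?_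
  have e := thLog_eq Φ z
  rw [thSq_off Φ hz, thLog] at e
  field_simp
  linear_combination -e

theorem zt_add_period (z : ℂ) : zt Φ (z + Φ.ω) = zt Φ z := by
  rw [zt, zt, th_add_period, deriv_th_add_period]

theorem zt_add_quasi {z : ℂ} (hz : z ∉ L.lattice) :
    zt Φ (z + Φ.τ * Φ.ω) = zt Φ z + shiftC Φ := by
  have h0 := th_ne_zero Φ hz
  have hm : thMul Φ z ≠ 0 := mul_ne_zero (Complex.exp_ne_zero _) (Complex.exp_ne_zero _)
  rw [zt, zt, th_add_quasi, deriv_th_add_quasi, mul_div_mul_left _ _ hm, add_div,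
    mul_div_cancel_right₀ _ h0]
  ring

theorem notMem_add {z : ℂ} (hz : z ∉ L.lattice) (i j : ℕ) :
    z + i * Φ.ω + j * (Φ.τ * Φ.ω) ∉ L.lattice := fun h => hz (by
  have h2 := (Φ.mem ((i : ℂ) * Φ.ω + j * (Φ.τ * Φ.ω))).2 ⟨i, j, by push_cast; ring⟩
  simpa [add_assoc] using sub_mem h h2)

theorem zt_add_mul {z : ℂ} (hz : z ∉ L.lattice) (i j : ℕ) :
    zt Φ (z + i * Φ.ω + j * (Φ.τ * Φ.ω)) = zt Φ z + j * shiftC Φ := by
  induction j with
  | zero =>
    simpa using Function.Periodic.nat_mul (zt_add_period Φ) i z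
  | succ n ih =>
    rw [show z + i * Φ.ω + ((n + 1 : ℕ) : ℂ) * (Φ.τ * Φ.ω) =
      z + i * Φ.ω + n * (Φ.τ * Φ.ω) + Φ.τ * Φ.ω by push_cast; ring,
      zt_add_quasi Φ (notMem_add Φ hz i n), ih]
    push_cast; ring

theorem norm_thMul (z : ℂ) :
    ‖thMul Φ z‖ = Real.exp (π * (2 * (z / Φ.ω).im + 2 * Φ.τ.im)) := by
  rw [thMul, thFac, ← Complex.exp_add, Complex.norm_exp,
    show -(2 * π * I * Φ.τ) - π * I + shiftC Φ * z =
      -(2 * π * I * Φ.τ) - π * I + -(2 * π * I * (z / Φ.ω)) by rw [shiftC]; ring]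
  congr 1
  simp [Complex.add_re]
  ring

theorem norm_th_le_shift {z : ℂ} (hz : 0 ≤ (z / Φ.ω).im) (i j : ℕ) :
    ‖th Φ z‖ ≤ ‖th Φ (z + i * Φ.ω + j * (Φ.τ * Φ.ω))‖ := by
  induction j with
  | zero =>
    simpa using
      le_of_eq (congrArg norm (Function.Periodic.nat_mul (th_add_period Φ) i z)).symm
  | succ n ih =>
    rw [show z + i * Φ.ω + ((n + 1 : ℕ) : ℂ) * (Φ.τ * Φ.ω) =
      z + i * Φ.ω + n * (Φ.τ * Φ.ω) + Φ.τ * Φ.ω by push_cast; ring, th_add_quasi, norm_mul]
    refine ih.trans (le_mul_of_one_le_left (norm_nonneg _) ?_)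
    rw [norm_thMul]
    refine Real.one_le_exp (mul_nonneg Real.pi_nonneg ?_)
    have hw : (z + i * Φ.ω + n * (Φ.τ * Φ.ω)) / Φ.ω = z / Φ.ω + i + n * Φ.τ := by
      field_simp [Φ.hω]
    have him : ((z + i * Φ.ω + n * (Φ.τ * Φ.ω)) / Φ.ω).im = (z / Φ.ω).im + n * Φ.τ.im := by
      rw [hw]; simp
    rw [him]
    have := Φ.hτ
    positivity

/-- The functions are of order two. -/
theorem exists_bound : ∃ C : ℝ, 0 ≤ C ∧ ∀ z, ‖th Φ z‖ ≤ Real.exp (C * (‖z‖ + 1) ^ 2) ∧
    ‖deriv (th Φ) z‖ ≤ Real.exp (C * (‖z‖ + 1) ^ 2) ∧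
    ‖thSq Φ z‖ ≤ Real.exp (C * (‖z‖ + 1) ^ 2) := by
  have hd := differentiable_th Φ
  obtain ⟨C₁, hC₁⟩ := exists_bound_of_quasiPeriodic Φ.hω Φ.hτ π hd.continuous (th_add_period Φ)
    fun z => by rw [th_add_quasi, norm_mul, norm_thMul]
  obtain ⟨C₂, hC₂⟩ := exists_bound_of_quasiPeriodic Φ.hω Φ.hτ (2 * π)
    (differentiable_thSq Φ).continuous (thSq_add_period Φ) fun z => by
      rw [thSq_add_quasi, norm_mul, norm_pow, norm_thMul, ← Real.exp_nat_mul]
      congr 2
      push_cast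
      ring
  set C := max 0 (max (4 * C₁) C₂) with hC
  refine ⟨C, le_max_left _ _, fun z => ⟨(hC₁ z).trans ?_, ?_, (hC₂ z).trans ?_⟩⟩
  · refine Real.exp_le_exp.2 (mul_le_mul_of_nonneg_right ?_ (sq_nonneg _))
    rcases le_total 0 C₁ with h | h
    · exact le_trans (by linarith) ((le_max_left _ _).trans (le_max_right _ _))
    · exact h.trans (le_max_left _ _)
  · refine (Complex.norm_deriv_le_of_forall_mem_sphere_norm_le one_pos hd.diffContOnCl
      fun w hw => (hC₁ w).trans (Real.exp_le_exp.2 (?_ : _ ≤ C * (‖z‖ + 1) ^ 2))).trans_eq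
        (div_one _)
    have h1 : ‖w‖ + 1 ≤ 2 * (‖z‖ + 1) := by
      rw [mem_sphere_iff_norm] at hw
      have := norm_le_norm_add_norm_sub' w z
      linarith [norm_nonneg z]
    rcases le_total 0 C₁ with h | h
    · calc C₁ * (‖w‖ + 1) ^ 2 ≤ C₁ * (2 * (‖z‖ + 1)) ^ 2 := by gcongr
        _ = 4 * C₁ * (‖z‖ + 1) ^ 2 := by ring
        _ ≤ _ := mul_le_mul_of_nonneg_right
          ((le_max_left _ _).trans (le_max_right _ _)) (sq_nonneg _)
    · exact (mul_nonpos_of_nonpos_of_nonneg h (sq_nonneg _)).trans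
        (mul_nonneg (le_max_left _ _) (sq_nonneg _))
  · exact Real.exp_le_exp.2 (mul_le_mul_of_nonneg_right
      ((le_max_right _ _).trans (le_max_right _ _)) (sq_nonneg _))

end FA.Chudnovsky

end
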